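import Fermat.Agent.S55.CycloUnram

/-!
# S55, block G5 (K1)/(K2): Kummer extensions unramified outside `S`

Everything is phrased in the prelude's language (valuation subrings of `ℚ̄` over a prime `q`,
inertia subgroups of `Gal(ℚ̄/ℚ)`), no ideals.

* `ku_root_fixed`: an inertia element at `q ≠ p` fixing a `q`-unit `u` fixes every
  `p^k`-th root of `u`.
* `ku_isUnramifiedOutside_sup_adjoin`: adjoining a `p^k`-th root of an element of a level field
  which is, locally at every place outside `S`, a `p^k`-th power up to a unit stays unramified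
  outside `S` (`p ∈ S`).
* `ku_exists_levelField`: a normal level field containing all `p^k`-th roots of finitely many
  such elements (and all `p^k`-th roots of unity).
* `ku_exists_root_unit`: (G-div) every `S`-unit of a level field is a `p`-th power of an
  `S`-unit of a bigger level field.
-/

set_option autoImplicit false

open IntermediateField
open scoped Pointwise

namespace Fermat.Agent.S55

local notation "GQ" => (AlgebraicClosure ℚ ≃ₐ[ℚ] AlgebraicClosure ℚ)
local notation "Qbar" => AlgebraicClosure ℚ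

section General

variable {L : Type*} [Field L] (A : ValuationSubring L)

/-- If `y ^ n` has valuation one (`n ≠ 0`) then so does `y`. -/
theorem ku_valuation_eq_one_of_pow {y : L} {n : ℕ} (hn : n ≠ 0)
    (h : A.valuation (y ^ n) = 1) : A.valuation y = 1 := by
  rw [map_pow] at h
  exact (pow_eq_one_iff.1 h).resolve_right hn

/-- A nontrivial `p^k`-th root of unity congruent to `1` modulo the maximal ideal forces `p` into
the maximal ideal. -/
theorem ku_valuation_prime_lt_one_of_pow {p : ℕ} (hp : p.Prime) (k : ℕ) {ω : L}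
    (hω : ω ^ (p ^ k) = 1) (hω1 : ω ≠ 1) (hlt : A.valuation (ω - 1) < 1) :
    A.valuation (p : L) < 1 := by
  induction k generalizing ω with
  | zero => exact absurd (by simpa using hω) hω1
  | succ k ih =>
    by_cases h1 : ω ^ p = 1
    · exact tl_valuation_prime_lt_one A hp h1 hω1 hlt
    · have hωA : ω ∈ A := by
        rw [← ValuationSubring.valuation_le_one_iff,
          tl_valuation_eq_one_of_pow_eq_one A (pow_ne_zero (k + 1) hp.ne_zero) hω]
      refine ih (ω := ω ^ p) ?_ h1 ?_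
      · rw [← pow_mul, ← pow_succ']; exact hω
      · have hfac : ω ^ p - 1 = (∑ j ∈ Finset.range p, ω ^ j) * (ω - 1) := by
          rw [geom_sum_mul]
        rw [hfac, map_mul]
        have hsum : A.valuation (∑ j ∈ Finset.range p, ω ^ j) ≤ 1 := by
          rw [ValuationSubring.valuation_le_one_iff]
          exact sum_mem fun j _ => pow_mem hωA j
        calc A.valuation (∑ j ∈ Finset.range p, ω ^ j) * A.valuation (ω - 1)
            ≤ 1 * A.valuation (ω - 1) := mul_le_mul_left hsum _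
          _ = A.valuation (ω - 1) := one_mul _
          _ < 1 := hlt

end General

/-- **Kummer lemma.** An inertia element at `q ≠ p` which fixes a `q`-unit `u` fixes every
`p^k`-th root of `u`. -/
theorem ku_root_fixed {p q : ℕ} (hp : p.Prime) (hq : q.Prime) (hqp : q ≠ p)
    (A : ValuationSubring Qbar) (hA : A.LiesOverPrime q) {σ : GQ}
    (hσ : σ ∈ A.inertiaSubgroupIn ℚ) (k : ℕ) {u y : Qbar} (hu : σ u = u)
    (hvu : A.valuation u = 1) (hy : y ^ (p ^ k) = u) : σ y = y := by
  by_contra hne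
  have hpk : p ^ k ≠ 0 := pow_ne_zero k hp.ne_zero
  obtain ⟨-, htriv⟩ := (tl_mem_inertiaSubgroupIn_iff A σ).1 hσ
  have hvy : A.valuation y = 1 := ku_valuation_eq_one_of_pow A hpk (by rw [hy, hvu])
  have hyA : y ∈ A := by rw [← ValuationSubring.valuation_le_one_iff, hvy]
  have hy0 : y ≠ 0 := by
    intro h0
    rw [h0, map_zero] at hvy
    exact zero_ne_one hvy
  have hlt0 : A.valuation (σ y - y) < 1 :=
    (ValuationSubring.mem_nonunits_iff (A := A)).1 (htriv y hyA)
  have hω : (σ y * y⁻¹) ^ (p ^ k) = 1 := by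
    rw [mul_pow, ← map_pow, hy, hu, inv_pow, hy]
    have hu0 : u ≠ 0 := by rw [← hy]; exact pow_ne_zero _ hy0
    exact mul_inv_cancel₀ hu0
  have hω1 : σ y * y⁻¹ ≠ 1 := by
    intro h
    apply hne
    have := congrArg (· * y) h
    simpa [hy0] using this
  have hlt : A.valuation (σ y * y⁻¹ - 1) < 1 := by
    have : σ y * y⁻¹ - 1 = (σ y - y) * y⁻¹ := by
      rw [sub_mul, mul_inv_cancel₀ hy0]
    rw [this, map_mul, map_inv₀, hvy, inv_one, mul_one]
    exact hlt0
  have h1 := ku_valuation_prime_lt_one_of_pow A hp k hω hω1 hlt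
  have h2 : A.valuation ((q : ℕ) : Qbar) < 1 :=
    (ValuationSubring.mem_nonunits_iff (A := A)).1 hA
  exact tl_not_two_primes A hp hq hqp h1 h2

/-- Variant: `x` is a `p^k`-th power up to a unit, locally at `A`, with the comparison element
`z` fixed by `σ`. -/
theorem ku_root_fixed' {p q : ℕ} (hp : p.Prime) (hq : q.Prime) (hqp : q ≠ p)
    (A : ValuationSubring Qbar) (hA : A.LiesOverPrime q) {σ : GQ}
    (hσ : σ ∈ A.inertiaSubgroupIn ℚ) (k : ℕ) {x y z : Qbar} (hx : σ x = x) (hz : σ z = z)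
    (hz0 : z ≠ 0) (hv : A.valuation x = A.valuation z ^ (p ^ k)) (hy : y ^ (p ^ k) = x) :
    σ y = y := by
  have h1 : σ (y * z⁻¹) = y * z⁻¹ := by
    refine ku_root_fixed hp hq hqp A hA hσ k (u := x * (z ^ (p ^ k))⁻¹) ?_ ?_ ?_
    · rw [map_mul, map_inv₀, map_pow, hx, hz]
    · rw [map_mul, map_inv₀, map_pow, hv]
      exact mul_inv_cancel₀ (pow_ne_zero _ ((map_ne_zero _).2 hz0))
    · rw [mul_pow, inv_pow, hy]
  rw [map_mul, map_inv₀, hz] at h1
  have := congrArg (· * z) h1
  simpa [hz0] using this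

section Level

variable {S : Finset Nat.Primes} {p : Nat.Primes}

/-- The local condition on `x ∈ F`: at every place outside `S`, `x` is a `p^k`-th power in `F` up
to a unit. -/
def ku_IsLocalPow (S : Finset Nat.Primes) (F : IntermediateField ℚ Qbar) (n : ℕ) (x : Qbar) :
    Prop :=
  ∀ q : Nat.Primes, q ∉ S → ∀ A : ValuationSubring Qbar, A.LiesOverPrime (q : ℕ) →
    ∃ z ∈ F, z ≠ 0 ∧ A.valuation x = A.valuation z ^ n

/-- An `S`-unit: valuation one at all places outside `S`. -/
def ku_IsSUnit (S : Finset Nat.Primes) (x : Qbar) : Prop :=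
  ∀ q : Nat.Primes, q ∉ S → ∀ A : ValuationSubring Qbar, A.LiesOverPrime (q : ℕ) →
    A.valuation x = 1

theorem ku_IsSUnit.isLocalPow {F : IntermediateField ℚ Qbar} {x : Qbar} (hx : ku_IsSUnit S x)
    (n : ℕ) : ku_IsLocalPow S F n x := fun q hq A hA =>
  ⟨1, one_mem F, one_ne_zero, by rw [hx q hq A hA, map_one, one_pow]⟩

theorem ku_isSUnit_one : ku_IsSUnit S (1 : Qbar) := fun _ _ A _ => map_one A.valuation

theorem ku_IsSUnit.mul {x y : Qbar} (hx : ku_IsSUnit S x) (hy : ku_IsSUnit S y) :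
    ku_IsSUnit S (x * y) := fun q hq A hA => by
  rw [map_mul, hx q hq A hA, hy q hq A hA, one_mul]

theorem ku_IsSUnit.inv {x : Qbar} (hx : ku_IsSUnit S x) : ku_IsSUnit S x⁻¹ :=
  fun q hq A hA => by rw [map_inv₀, hx q hq A hA, inv_one]

theorem ku_IsSUnit.of_pow {y : Qbar} {n : ℕ} (hn : n ≠ 0) (h : ku_IsSUnit S (y ^ n)) :
    ku_IsSUnit S y := fun q hq A hA => ku_valuation_eq_one_of_pow A hn (h q hq A hA)

theorem ku_IsSUnit.map {x : Qbar} (hx : ku_IsSUnit S x) (τ : GQ) : ku_IsSUnit S (τ x) := by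
  intro q hq A hA
  -- transport to `τ⁻¹ • A`
  have h1 := hx q hq (τ⁻¹ • A) (tl_liesOverPrime_smul τ⁻¹ A q hA)
  have hmem : ∀ w : Qbar, w ∈ τ⁻¹ • A ↔ τ w ∈ A := fun w => by
    constructor
    · intro hw
      obtain ⟨a, ha, rfl⟩ := (ValuationSubring.mem_smul_pointwise_iff_exists τ⁻¹ w A).1 hw
      have : τ (τ⁻¹ • a) = a := τ.apply_symm_apply a
      rw [this]; exact ha
    · intro hw
      have : w = τ⁻¹ • τ w := (τ.symm_apply_apply w).symm
      rw [this]
      exact (ValuationSubring.smul_mem_pointwise_smul_iff (g := τ⁻¹) (S := A) (x := τ w)).2 hw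
  have hx0 : x ≠ 0 := by
    intro h0; rw [h0, map_zero] at h1; exact zero_ne_one h1
  have hle : A.valuation (τ x) ≤ 1 := by
    rw [ValuationSubring.valuation_le_one_iff, ← hmem,
      ← ValuationSubring.valuation_le_one_iff, h1]
  have hle' : A.valuation (τ x)⁻¹ ≤ 1 := by
    rw [← map_inv₀ τ, ValuationSubring.valuation_le_one_iff, ← hmem,
      ← ValuationSubring.valuation_le_one_iff, map_inv₀, h1, inv_one]
  rw [map_inv₀] at hle'
  have hτx0 : A.valuation (τ x) ≠ 0 := (map_ne_zero _).2 ((map_ne_zero τ).2 hx0)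
  refine le_antisymm hle ?_
  have := (inv_le_one₀ (zero_lt_iff.2 hτx0)).1 hle'
  exact this

/-- An automorphism fixing a set pointwise fixes the field it generates. -/
theorem ku_mem_fixingSubgroup_adjoin {σ : GQ} {R : Set Qbar} (h : ∀ y ∈ R, σ y = y) :
    σ ∈ (IntermediateField.adjoin ℚ R).fixingSubgroup := by
  rw [← Subgroup.zpowers_le, ← IntermediateField.le_iff_le, IntermediateField.adjoin_le_iff]
  rintro w hw
  have hσy := h w hw
  rintro ⟨τ, hτ⟩
  obtain ⟨n, rfl⟩ := Subgroup.mem_zpowers_iff.1 hτ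
  show (σ ^ n) w = w
  have h1 : ∀ m : ℕ, (σ ^ m) w = w := by
    intro m
    induction m with
    | zero => rfl
    | succ m ih => rw [pow_succ]; show (σ ^ m) (σ w) = w; rw [hσy, ih]
  have h2 : ∀ m : ℕ, (σ ^ m)⁻¹ w = w := by
    intro m
    have := h1 m
    conv_lhs => rw [← this]
    exact (σ ^ m).symm_apply_apply w
  cases n with
  | ofNat m => simpa using h1 m
  | negSucc m => simpa using h2 (m + 1)

/-- Adjoining a finite set of elements fixed by all inertia groups outside `S` to a level field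
gives a field unramified outside `S`. -/
theorem ku_isUnramifiedOutside_sup_adjoin_of_fixed {F : IntermediateField ℚ Qbar}
    (hF : F.IsUnramifiedOutside S) {R : Set Qbar} (hR : R.Finite)
    (hfix : ∀ q : Nat.Primes, q ∉ S → ∀ A : ValuationSubring Qbar, A.LiesOverPrime (q : ℕ) →
      ∀ σ ∈ A.inertiaSubgroupIn ℚ, ∀ y ∈ R, σ y = y) :
    (F ⊔ IntermediateField.adjoin ℚ R).IsUnramifiedOutside S := by
  have := hF.1
  have : Finite R := hR
  have : FiniteDimensional ℚ (IntermediateField.adjoin ℚ R) :=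
    IntermediateField.finiteDimensional_adjoin
      fun y _ => (AlgebraicClosure.isAlgebraic ℚ).isIntegral.isIntegral y
  refine ⟨inferInstance, fun q hq A hA σ hσ => ?_⟩
  rw [IntermediateField.fixingSubgroup_sup]
  exact ⟨hF.2 q hq A hA hσ, ku_mem_fixingSubgroup_adjoin (hfix q hq A hA σ hσ)⟩

/-- Inertia groups outside `S ∋ p` fix the `p^k`-th roots of locally-`p^k`-th-power elements of a
level field. -/
theorem ku_root_fixed_of_isLocalPow (hpS : p ∈ S) {F : IntermediateField ℚ Qbar}
    (hF : F.IsUnramifiedOutside S) (k : ℕ) {x y : Qbar} (hxF : x ∈ F)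
    (hx : ku_IsLocalPow S F ((p : ℕ) ^ k) x) (hy : y ^ ((p : ℕ) ^ k) = x)
    (q : Nat.Primes) (hq : q ∉ S) (A : ValuationSubring Qbar) (hA : A.LiesOverPrime (q : ℕ))
    (σ : GQ) (hσ : σ ∈ A.inertiaSubgroupIn ℚ) : σ y = y := by
  have hσF := hF.2 q hq A hA hσ
  rw [IntermediateField.mem_fixingSubgroup_iff] at hσF
  have hqp : (q : ℕ) ≠ (p : ℕ) := by
    intro h
    apply hq
    have : q = p := Subtype.ext h
    rw [this]; exact hpS
  obtain ⟨z, hzF, hz0, hv⟩ := hx q hq A hA
  exact ku_root_fixed' p.2 q.2 hqp A hA hσ k (hσF x hxF) (hσF z hzF) hz0 hv hy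

/-- Adjoining one `p^k`-th root of a locally-`p^k`-th-power element of a level field stays
unramified outside `S`, provided `p ∈ S`. -/
theorem ku_isUnramifiedOutside_sup_adjoin (hpS : p ∈ S) {F : IntermediateField ℚ Qbar}
    (hF : F.IsUnramifiedOutside S) (k : ℕ) {x y : Qbar} (hxF : x ∈ F)
    (hx : ku_IsLocalPow S F ((p : ℕ) ^ k) x) (hy : y ^ ((p : ℕ) ^ k) = x) :
    (F ⊔ IntermediateField.adjoin ℚ {y}).IsUnramifiedOutside S := by
  refine ku_isUnramifiedOutside_sup_adjoin_of_fixed hF (Set.finite_singleton y) ?_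
  intro q hq A hA σ hσ w hw
  rw [Set.mem_singleton_iff] at hw
  subst hw
  exact ku_root_fixed_of_isLocalPow hpS hF k hxF hx hy q hq A hA σ hσ

/-- **Level fields with roots.** For a level field `F` (unramified outside `S ∋ p`) and finitely
many elements of `F` which are locally `p^k`-th powers up to units outside `S`, there is a
level field `F' ≥ F`, normal over `ℚ`, containing all `p^k`-th roots of these elements and all
`p^k`-th roots of unity. -/
theorem ku_exists_levelField (hpS : p ∈ S) {F : IntermediateField ℚ Qbar}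
    (hF : F.IsUnramifiedOutside S) (k : ℕ) (X : Finset Qbar) (hXF : ∀ x ∈ X, x ∈ F)
    (hX : ∀ x ∈ X, ku_IsLocalPow S F ((p : ℕ) ^ k) x) :
    ∃ F' : IntermediateField ℚ Qbar, F ≤ F' ∧ F'.IsUnramifiedOutside S ∧ Normal ℚ F' ∧
      (∀ x ∈ X, ∀ y : Qbar, y ^ ((p : ℕ) ^ k) = x → y ∈ F') ∧
      ∀ ζ : Qbar, ζ ^ ((p : ℕ) ^ k) = 1 → ζ ∈ F' := by
  classical
  have hpk : 0 < (p : ℕ) ^ k := pow_pos p.2.pos k
  set X' : Finset Qbar := insert 1 X with hX'
  set R : Finset Qbar := X'.biUnion fun x => (Polynomial.nthRoots ((p : ℕ) ^ k) x).toFinset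
    with hRdef
  have hmemR : ∀ y : Qbar, y ∈ R ↔ y ^ ((p : ℕ) ^ k) ∈ X' := by
    intro y
    rw [hRdef, Finset.mem_biUnion]
    constructor
    · rintro ⟨x, hx, hy⟩
      rw [Multiset.mem_toFinset, Polynomial.mem_nthRoots hpk] at hy
      rw [hy]; exact hx
    · intro hy
      exact ⟨_, hy, by rw [Multiset.mem_toFinset, Polynomial.mem_nthRoots hpk]⟩
  have hX'F : ∀ x ∈ X', x ∈ F := by
    intro x hx
    rcases Finset.mem_insert.1 hx with rfl | hx
    · exact one_mem F
    · exact hXF x hx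
  have hX'loc : ∀ x ∈ X', ku_IsLocalPow S F ((p : ℕ) ^ k) x := by
    intro x hx
    rcases Finset.mem_insert.1 hx with rfl | hx
    · exact ku_isSUnit_one.isLocalPow _
    · exact hX x hx
  have hF1 : (F ⊔ IntermediateField.adjoin ℚ (R : Set Qbar)).IsUnramifiedOutside S := by
    refine ku_isUnramifiedOutside_sup_adjoin_of_fixed hF R.finite_toSet ?_
    intro q hq A hA σ hσ y hy
    have hy' := (hmemR y).1 (Finset.mem_coe.1 hy)
    exact ku_root_fixed_of_isLocalPow hpS hF k (hX'F _ hy') (hX'loc _ hy') rfl q hq A hA σ hσ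
  have : Algebra.IsAlgebraic ℚ Qbar := AlgebraicClosure.isAlgebraic ℚ
  have : IsAlgClosure ℚ Qbar := ⟨inferInstance, inferInstance⟩
  have : Normal ℚ Qbar := IsAlgClosure.normal ℚ Qbar
  refine ⟨IntermediateField.normalClosure ℚ
      (F ⊔ IntermediateField.adjoin ℚ (R : Set Qbar) : IntermediateField ℚ Qbar) Qbar,
    le_sup_left.trans (IntermediateField.le_normalClosure _),
    tl_isUnramifiedOutside_normalClosure hF1, normalClosure.normal ℚ _ Qbar, ?_, ?_⟩
  · intro x hx y hy
    refine IntermediateField.le_normalClosure _ (le_sup_right (a := F) ?_)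
    refine IntermediateField.subset_adjoin ℚ _ (Finset.mem_coe.2 ((hmemR y).2 ?_))
    rw [hy]; exact Finset.mem_insert_of_mem hx
  · intro ζ hζ
    refine IntermediateField.le_normalClosure _ (le_sup_right (a := F) ?_)
    refine IntermediateField.subset_adjoin ℚ _ (Finset.mem_coe.2 ((hmemR ζ).2 ?_))
    rw [hζ]; exact Finset.mem_insert_self _ _

/-- **(G-div).** Every `S`-unit of a level field is a `p`-th power (indeed a `p^k`-th power) of
an `S`-unit of a bigger normal level field (`p ∈ S`). -/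
theorem ku_exists_root_unit (hpS : p ∈ S) {F : IntermediateField ℚ Qbar}
    (hF : F.IsUnramifiedOutside S) (k : ℕ) {u : Qbar} (huF : u ∈ F) (hu : ku_IsSUnit S u) :
    ∃ F' : IntermediateField ℚ Qbar, F ≤ F' ∧ F'.IsUnramifiedOutside S ∧ Normal ℚ F' ∧
      ∃ y ∈ F', y ^ ((p : ℕ) ^ k) = u ∧ ku_IsSUnit S y := by
  have hpk : (p : ℕ) ^ k ≠ 0 := pow_ne_zero k p.2.ne_zero
  obtain ⟨F', hle, hF', hnorm, hroots, -⟩ := ku_exists_levelField hpS hF k {u}
    (fun x hx => by rw [Finset.mem_singleton.1 hx]; exact huF)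
    (fun x hx => by rw [Finset.mem_singleton.1 hx]; exact hu.isLocalPow _)
  obtain ⟨y, hy⟩ := IsAlgClosed.exists_pow_nat_eq u (Nat.pos_of_ne_zero hpk)
  refine ⟨F', hle, hF', hnorm, y, hroots u (Finset.mem_singleton_self u) y hy, hy, ?_⟩
  exact ku_IsSUnit.of_pow hpk (by rw [hy]; exact hu)

end Level

end Fermat.Agent.S55
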