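import Mathlib

set_option autoImplicit false
set_option linter.unusedSectionVars false

/-!
# S55 / Kummer / Degree

Kummer theory in exponent `p` (pure field theory).  `K` a field containing a primitive `p`-th root
of unity `ζ` (`p` prime), `W ≤ Kˣ` a subgroup, `L / K` a field extension in which every `w ∈ W` has
a `p`-th root and which is generated by these roots.  Then `L / K` is Galois, abelian of exponent
`p`, the Kummer pairing `Gal(L/K) × W → μ_p` has trivial left kernel and right kernel `W ∩ Kˣᵖ`,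
and if `W Kˣᵖ / Kˣᵖ` is finite, `[L : K] = |W Kˣᵖ / Kˣᵖ|`.
-/

namespace Fermat.Agent.S55

open IntermediateField Polynomial

section Kummer

variable {K L : Type*} [Field K] [Field L] [Algebra K L] {p : ℕ} [hp : Fact p.Prime]
  {ζ : K} (hζ : IsPrimitiveRoot ζ p)

include hζ

/-- Every `p`-th root of unity of `L` comes from `K`. -/
theorem kd_rootOfUnity_mem {x : L} (hx : x ^ p = 1) : ∃ c : K, algebraMap K L c = x := by
  have hζ' : IsPrimitiveRoot (algebraMap K L ζ) p :=
    hζ.map_of_injective (algebraMap K L).injective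
  have : NeZero p := ⟨hp.out.ne_zero⟩
  obtain ⟨i, -, hi⟩ := hζ'.eq_pow_of_pow_eq_one hx
  exact ⟨ζ ^ i, by rw [map_pow, hi]⟩

/-- `K`-algebra automorphisms of `L` fix the `p`-th roots of unity. -/
theorem kd_rootOfUnity_fixed (σ : L ≃ₐ[K] L) {x : L} (hx : x ^ p = 1) : σ x = x := by
  obtain ⟨c, rfl⟩ := kd_rootOfUnity_mem hζ hx
  exact σ.commutes c

/-- `p` is invertible in `K`. -/
theorem kd_prime_ne_zero : (p : K) ≠ 0 := by
  have : NeZero p := ⟨hp.out.ne_zero⟩
  exact (hζ.neZero' (n := p)).out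

/-- Two `p`-th roots of the same element differ by an element of `K`. -/
theorem kd_root_unique {y y' : L} (hy0 : y ≠ 0) (h : y' ^ p = y ^ p) :
    ∃ c : K, y' = algebraMap K L c * y := by
  have h1 : (y' / y) ^ p = 1 := by
    rw [div_pow, h, div_self (pow_ne_zero _ hy0)]
  obtain ⟨c, hc⟩ := kd_rootOfUnity_mem hζ h1
  exact ⟨c, by rw [hc, div_mul_cancel₀ _ hy0]⟩

/-- The quotient `σ y / y` does not depend on the chosen `p`-th root `y`. -/
theorem kd_quot_indep (σ : L ≃ₐ[K] L) {y y' : L} (hy0 : y ≠ 0) (h : y' ^ p = y ^ p) :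
    σ y' / y' = σ y / y := by
  obtain ⟨c, rfl⟩ := kd_root_unique hζ hy0 h
  have hc0 : algebraMap K L c ≠ 0 := by
    intro h0
    rw [h0, zero_mul, zero_pow hp.out.ne_zero] at h
    exact pow_ne_zero _ hy0 h.symm
  rw [map_mul, σ.commutes]
  field_simp

omit hζ in
/-- `σ y / y` is a `p`-th root of unity when `y ^ p ∈ K`. -/
theorem kd_quot_pow (σ : L ≃ₐ[K] L) {y : L} (hy0 : y ≠ 0) {a : K}
    (hy : y ^ p = algebraMap K L a) : (σ y / y) ^ p = 1 := by
  rw [div_pow, ← map_pow, hy, σ.commutes, ← hy, div_self (pow_ne_zero _ hy0)]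

end Kummer

section Pairing

variable {K L : Type*} [Field K] [Field L] [Algebra K L] {p : ℕ} [hp : Fact p.Prime]
  {ζ : K} (hζ : IsPrimitiveRoot ζ p) (W : Subgroup Kˣ)
  (hroot : ∀ w ∈ W, ∃ y : L, y ^ p = algebraMap K L ((w : Kˣ) : K))

/-- A chosen `p`-th root in `L` of `w ∈ W`. -/
noncomputable def kd_root (w : W) : L := Classical.choose (hroot w.1 w.2)

theorem kd_root_pow (w : W) : kd_root W hroot w ^ p = algebraMap K L ((w : Kˣ) : K) :=
  Classical.choose_spec (hroot w.1 w.2)

theorem kd_root_ne_zero (w : W) : kd_root W hroot w ≠ 0 := by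
  intro h
  have h1 := kd_root_pow W hroot w
  rw [h, zero_pow hp.out.ne_zero] at h1
  exact (w : Kˣ).ne_zero ((map_eq_zero (algebraMap K L)).mp h1.symm)

/-- The value `σ y / y` of the Kummer pairing, as a unit of `L`. -/
noncomputable def kd_val (σ : L ≃ₐ[K] L) (w : W) : Lˣ :=
  Units.mk0 (σ (kd_root W hroot w) / kd_root W hroot w)
    (div_ne_zero ((EmbeddingLike.map_ne_zero_iff).mpr (kd_root_ne_zero W hroot w))
      (kd_root_ne_zero W hroot w))

include hζ in
/-- The Kummer pairing can be computed with any `p`-th root. -/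
theorem kd_val_eq (σ : L ≃ₐ[K] L) (w : W) {y : L}
    (hy : y ^ p = algebraMap K L ((w : Kˣ) : K)) :
    ((kd_val W hroot σ w : Lˣ) : L) = σ y / y := by
  show σ (kd_root W hroot w) / kd_root W hroot w = σ y / y
  have hy0 : y ≠ 0 := by
    intro h
    rw [h, zero_pow hp.out.ne_zero] at hy
    exact (w : Kˣ).ne_zero ((map_eq_zero (algebraMap K L)).mp hy.symm)
  exact kd_quot_indep hζ σ hy0 ((kd_root_pow W hroot w).trans hy.symm)

include hζ in
theorem kd_val_pow (σ : L ≃ₐ[K] L) (w : W) : kd_val W hroot σ w ^ p = 1 := by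
  apply Units.ext
  rw [Units.val_pow_eq_pow_val, Units.val_one]
  exact kd_quot_pow σ (kd_root_ne_zero W hroot w) (kd_root_pow W hroot w)

include hζ in
theorem kd_val_mul_right (σ : L ≃ₐ[K] L) (w w' : W) :
    kd_val W hroot σ (w * w') = kd_val W hroot σ w * kd_val W hroot σ w' := by
  apply Units.ext
  have h1 : (kd_root W hroot w * kd_root W hroot w') ^ p =
      algebraMap K L (((w * w' : W) : Kˣ) : K) := by
    rw [mul_pow, kd_root_pow, kd_root_pow, ← map_mul]
    rfl
  rw [kd_val_eq hζ W hroot σ (w * w') h1, Units.val_mul]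
  show _ = (σ (kd_root W hroot w) / kd_root W hroot w) *
    (σ (kd_root W hroot w') / kd_root W hroot w')
  rw [map_mul]
  have := kd_root_ne_zero W hroot w
  have := kd_root_ne_zero W hroot w'
  field_simp

include hζ in
theorem kd_val_one_right (σ : L ≃ₐ[K] L) : kd_val W hroot σ 1 = 1 := by
  have h := kd_val_mul_right hζ W hroot σ 1 1
  rw [mul_one] at h
  exact (mul_eq_left).mp h.symm

include hζ in
theorem kd_val_mul_left (σ τ : L ≃ₐ[K] L) (w : W) :
    kd_val W hroot (σ * τ) w = kd_val W hroot σ w * kd_val W hroot τ w := by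
  apply Units.ext
  rw [Units.val_mul]
  show (σ * τ) (kd_root W hroot w) / kd_root W hroot w =
    (σ (kd_root W hroot w) / kd_root W hroot w) * (τ (kd_root W hroot w) / kd_root W hroot w)
  have h0 := kd_root_ne_zero W hroot w
  have hfix : σ (τ (kd_root W hroot w) / kd_root W hroot w) =
      τ (kd_root W hroot w) / kd_root W hroot w :=
    kd_rootOfUnity_fixed hζ σ (kd_quot_pow τ h0 (kd_root_pow W hroot w))
  rw [map_div₀] at hfix
  have hσ0 : σ (kd_root W hroot w) ≠ 0 := (EmbeddingLike.map_ne_zero_iff).mpr h0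
  rw [AlgEquiv.mul_apply]
  rw [div_eq_div_iff hσ0 h0] at hfix
  field_simp
  rw [hfix]
  ring

/-- The Kummer pairing in the second variable. -/
noncomputable def kd_pairW (σ : L ≃ₐ[K] L) : W →* Lˣ where
  toFun := kd_val W hroot σ
  map_one' := kd_val_one_right hζ W hroot σ
  map_mul' := kd_val_mul_right hζ W hroot σ

/-- **The Kummer pairing** `Gal(L/K) → Hom(W, Lˣ)`, `(σ, w) ↦ σ y / y` with `y ^ p = w`. -/
noncomputable def kd_pair : (L ≃ₐ[K] L) →* (W →* Lˣ) where
  toFun := kd_pairW hζ W hroot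
  map_one' := by
    ext w
    show ((kd_val W hroot 1 w : Lˣ) : L) = 1
    show (1 : L ≃ₐ[K] L) (kd_root W hroot w) / kd_root W hroot w = 1
    rw [AlgEquiv.one_apply, div_self (kd_root_ne_zero W hroot w)]
  map_mul' := by
    intro σ τ
    ext w
    show ((kd_val W hroot (σ * τ) w : Lˣ) : L) = _
    rw [kd_val_mul_left hζ W hroot σ τ w]
    rfl

theorem kd_pair_apply (σ : L ≃ₐ[K] L) (w : W) {y : L}
    (hy : y ^ p = algebraMap K L ((w : Kˣ) : K)) :
    ((kd_pair hζ W hroot σ w : Lˣ) : L) = σ y / y :=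
  kd_val_eq hζ W hroot σ w hy

theorem kd_pair_pow (σ : L ≃ₐ[K] L) (w : W) : kd_pair hζ W hroot σ w ^ p = 1 :=
  kd_val_pow hζ W hroot σ w

/-- `kd_pair σ w = 1` iff `σ` fixes one (every) `p`-th root of `w`. -/
theorem kd_pair_eq_one_iff_fixed (σ : L ≃ₐ[K] L) (w : W) {y : L}
    (hy : y ^ p = algebraMap K L ((w : Kˣ) : K)) :
    kd_pair hζ W hroot σ w = 1 ↔ σ y = y := by
  have hy0 : y ≠ 0 := by
    intro h
    rw [h, zero_pow hp.out.ne_zero] at hy
    exact (w : Kˣ).ne_zero ((map_eq_zero (algebraMap K L)).mp hy.symm)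
  rw [← Units.val_inj, kd_pair_apply hζ W hroot σ w hy, Units.val_one, div_eq_one_iff_eq hy0]

/-- The set of all `p`-th roots in `L` of elements of `W`. -/
def kd_roots (W : Subgroup Kˣ) (L : Type*) [Field L] [Algebra K L] (p : ℕ) : Set L :=
  {y : L | ∃ w ∈ W, y ^ p = algebraMap K L ((w : Kˣ) : K)}

variable (hgen : IntermediateField.adjoin K (kd_roots W L p) = ⊤)

include hgen in
/-- An automorphism fixing all `p`-th roots of elements of `W` is trivial. -/
theorem kd_eq_one_of_fixed (σ : L ≃ₐ[K] L) (h : ∀ y ∈ kd_roots W L p, σ y = y) : σ = 1 := by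
  have hle : IntermediateField.adjoin K (kd_roots W L p) ≤
      IntermediateField.fixedField (Subgroup.zpowers σ) := by
    rw [IntermediateField.adjoin_le_iff]
    intro y hy
    rw [SetLike.mem_coe, IntermediateField.mem_fixedField_iff]
    intro τ hτ
    obtain ⟨k, rfl⟩ := Subgroup.mem_zpowers_iff.mp hτ
    have h1 : σ y = y := h y hy
    have h2 : σ⁻¹ y = y := by
      conv_lhs => rw [← h1]
      exact σ.symm_apply_apply y
    have key : ∀ k : ℤ, (σ ^ k) y = y := by
      intro k
      induction k using Int.induction_on with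
      | zero => simp
      | succ i ih => rw [zpow_add_one, AlgEquiv.mul_apply, h1]; exact ih
      | pred i ih => rw [zpow_sub_one, AlgEquiv.mul_apply, h2]; exact ih
    exact key k
  rw [hgen] at hle
  ext x
  have hx : x ∈ IntermediateField.fixedField (Subgroup.zpowers σ) := hle IntermediateField.mem_top
  rw [IntermediateField.mem_fixedField_iff] at hx
  exact hx σ (Subgroup.mem_zpowers σ)

include hgen in
/-- The left kernel of the Kummer pairing is trivial. -/
theorem kd_pair_injective : Function.Injective (kd_pair hζ W hroot : (L ≃ₐ[K] L) →* (W →* Lˣ)) := by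
  rw [injective_iff_map_eq_one]
  intro σ hσ
  apply kd_eq_one_of_fixed W hgen σ
  rintro y ⟨w, hw, hy⟩
  have h1 : kd_pair hζ W hroot σ ⟨w, hw⟩ = 1 := by rw [hσ]; rfl
  exact (kd_pair_eq_one_iff_fixed hζ W hroot σ ⟨w, hw⟩ hy).mp h1

include hζ hroot hgen in
/-- `Gal(L/K)` is commutative. -/
theorem kd_comm (σ τ : L ≃ₐ[K] L) : σ * τ = τ * σ := by
  apply kd_pair_injective hζ W hroot hgen
  rw [map_mul, map_mul]
  ext w
  rw [MonoidHom.mul_apply, MonoidHom.mul_apply, mul_comm]

include hζ hroot hgen in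
/-- `Gal(L/K)` has exponent `p`. -/
theorem kd_pow_eq_one (σ : L ≃ₐ[K] L) : σ ^ p = 1 := by
  apply kd_pair_injective hζ W hroot hgen
  rw [map_pow, map_one]
  ext w
  rw [MonoidHom.pow_apply, kd_pair_pow]
  rfl

omit hp in
theorem kd_aeval_roots {y : L} {w : Kˣ} (hy : y ^ p = algebraMap K L (w : K)) :
    Polynomial.aeval y (X ^ p - C (w : K) : K[X]) = 0 := by
  rw [map_sub, map_pow, aeval_X, aeval_C, hy, sub_self]

include hζ hgen in
/-- `L / K` is Galois (possibly of infinite degree). -/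
theorem kd_isGalois : IsGalois K L := by
  have hp0 : (p : K) ≠ 0 := kd_prime_ne_zero hζ
  have hint : ∀ y ∈ kd_roots W L p, IsIntegral K y := by
    rintro y ⟨w, -, hy⟩
    exact ⟨X ^ p - C (w : K), monic_X_pow_sub_C _ hp.out.ne_zero, kd_aeval_roots hy⟩
  have hdvd : ∀ y ∈ kd_roots W L p, ∃ w : Kˣ, minpoly K y ∣ X ^ p - C (w : K) := by
    rintro y ⟨w, -, hy⟩
    exact ⟨w, minpoly.dvd K y (kd_aeval_roots hy)⟩
  have hsplit : ∀ y ∈ kd_roots W L p, ((minpoly K y).map (algebraMap K L)).Splits := by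
    rintro y ⟨w, hw, hy⟩
    have h1 : (X ^ p - C (algebraMap K L (w : K)) : L[X]).Splits :=
      X_pow_sub_C_splits_of_isPrimitiveRoot
        (hζ.map_of_injective (algebraMap K L).injective) hy
    have h2 : minpoly K y ∣ X ^ p - C (w : K) := minpoly.dvd K y (kd_aeval_roots hy)
    have h3 : (minpoly K y).map (algebraMap K L) ∣ X ^ p - C (algebraMap K L (w : K)) := by
      have := Polynomial.map_dvd (algebraMap K L) h2
      simpa using this
    exact Splits.of_dvd h1 (X_pow_sub_C_ne_zero hp.out.pos _) h3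
  have hsep : ∀ y ∈ kd_roots W L p, IsSeparable K y := by
    intro y hy
    obtain ⟨w, h2⟩ := hdvd y hy
    exact (separable_X_pow_sub_C _ hp0 w.ne_zero).of_dvd h2
  have hnormal : Normal K L := by
    rw [normal_iff]
    intro x
    have hx : x ∈ IntermediateField.adjoin K (kd_roots W L p) := by rw [hgen]; trivial
    have halg : Algebra.IsAlgebraic K (IntermediateField.adjoin K (kd_roots W L p)) :=
      IntermediateField.isAlgebraic_adjoin hint
    refine ⟨?_, IntermediateField.splits_of_mem_adjoin K L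
      (fun y hy => ⟨hint y hy, hsplit y hy⟩) hx⟩
    have := (halg.isAlgebraic ⟨x, hx⟩).isIntegral
    exact (isIntegral_algHom_iff (IntermediateField.val _) Subtype.val_injective).mpr this
  have hsepL : Algebra.IsSeparable K L := by
    have h1 : Algebra.IsSeparable K (IntermediateField.adjoin K (kd_roots W L p)) :=
      (IntermediateField.isSeparable_adjoin_iff_isSeparable K L).mpr hsep
    rw [hgen] at h1
    exact (AlgEquiv.Algebra.isSeparable
      (IntermediateField.topEquiv : (⊤ : IntermediateField K L) ≃ₐ[K] L))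
  exact isGalois_iff.mpr ⟨hsepL, hnormal⟩

include hgen in
/-- The right kernel of the Kummer pairing is `W ∩ Kˣᵖ`. -/
theorem kd_pair_right_eq_one_iff (w : W) :
    (∀ σ : L ≃ₐ[K] L, kd_pair hζ W hroot σ w = 1) ↔
      (w : Kˣ) ∈ (powMonoidHom p : Kˣ →* Kˣ).range := by
  constructor
  · intro h
    have : IsGalois K L := kd_isGalois hζ W hgen
    have hfix : ∀ σ : L ≃ₐ[K] L, σ (kd_root W hroot w) = kd_root W hroot w := fun σ =>
      (kd_pair_eq_one_iff_fixed hζ W hroot σ w (kd_root_pow W hroot w)).mp (h σ)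
    have hbot : kd_root W hroot w ∈ (⊥ : IntermediateField K L) :=
      (InfiniteGalois.mem_bot_iff_fixed _).mpr hfix
    obtain ⟨c, hc⟩ := IntermediateField.mem_bot.mp hbot
    have hc0 : c ≠ 0 := by
      rintro rfl
      rw [map_zero] at hc
      exact kd_root_ne_zero W hroot w hc.symm
    refine ⟨Units.mk0 c hc0, ?_⟩
    apply Units.ext
    apply (algebraMap K L).injective
    rw [powMonoidHom_apply, Units.val_pow_eq_pow_val, Units.val_mk0, map_pow, hc]
    exact kd_root_pow W hroot w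
  · rintro ⟨c, hc⟩ σ
    have hy : (algebraMap K L (c : K)) ^ p = algebraMap K L ((w : Kˣ) : K) := by
      rw [← map_pow, ← hc, powMonoidHom_apply, Units.val_pow_eq_pow_val]
    exact (kd_pair_eq_one_iff_fixed hζ W hroot σ w hy).mpr (σ.commutes _)

include hζ in
/-- `L` has enough `p`-th roots of unity. -/
theorem kd_hasEnough : HasEnoughRootsOfUnity L p :=
  ⟨⟨algebraMap K L ζ, hζ.map_of_injective (algebraMap K L).injective⟩, by
    have : NeZero p := ⟨hp.out.ne_zero⟩
    infer_instance⟩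

end Pairing

section Count

variable {K L : Type*} [Field K] [Field L] [Algebra K L] {p : ℕ} [hp : Fact p.Prime]
  {ζ : K} (hζ : IsPrimitiveRoot ζ p) (W : Subgroup Kˣ)
  (hroot : ∀ w ∈ W, ∃ y : L, y ^ p = algebraMap K L ((w : Kˣ) : K))
  (hgen : IntermediateField.adjoin K (kd_roots W L p) = ⊤)

/-- The group `W / (W ∩ Kˣᵖ) ≅ W Kˣᵖ / Kˣᵖ`. -/
abbrev kd_V (W : Subgroup Kˣ) (p : ℕ) : Type _ :=
  W ⧸ ((powMonoidHom p : Kˣ →* Kˣ).range.subgroupOf W)

omit hp in
theorem kd_card_V : Nat.card (kd_V W p) = (powMonoidHom p : Kˣ →* Kˣ).range.relIndex W := rfl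

omit hp in
theorem kd_V_pow (v : kd_V W p) : v ^ p = 1 := by
  obtain ⟨w, rfl⟩ := QuotientGroup.mk_surjective v
  rw [← QuotientGroup.mk_pow, QuotientGroup.eq_one_iff, Subgroup.mem_subgroupOf]
  exact ⟨(w : Kˣ), by simp⟩

omit hp in
theorem kd_exponent_V_dvd : Monoid.exponent (kd_V W p) ∣ p :=
  Monoid.exponent_dvd_of_forall_pow_eq_one (kd_V_pow W)

include hgen in
/-- The Kummer pairing descends to `W / (W ∩ Kˣᵖ)`. -/
noncomputable def kd_lift (σ : L ≃ₐ[K] L) : kd_V W p →* Lˣ :=
  QuotientGroup.lift _ (kd_pair hζ W hroot σ) (by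
    intro w hw
    rw [Subgroup.mem_subgroupOf] at hw
    exact (kd_pair_right_eq_one_iff hζ W hroot hgen w).mpr hw σ)

theorem kd_lift_mk (σ : L ≃ₐ[K] L) (w : W) :
    kd_lift hζ W hroot hgen σ (QuotientGroup.mk w) = kd_pair hζ W hroot σ w := rfl

theorem kd_lift_injective : Function.Injective (kd_lift hζ W hroot hgen) := by
  intro σ τ h
  apply kd_pair_injective hζ W hroot hgen
  ext w
  have := congrArg (fun f => ((f (QuotientGroup.mk w) : Lˣ) : L)) h
  simpa only [kd_lift_mk] using this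

variable (hfin : (powMonoidHom p : Kˣ →* Kˣ).range.relIndex W ≠ 0)

include hfin in
omit hp in
theorem kd_finite_V : Finite (kd_V W p) :=
  Subgroup.index_ne_zero_iff_finite.mp hfin

include hζ hfin in
theorem kd_card_hom_V : Nat.card (kd_V W p →* Lˣ) = Nat.card (kd_V W p) := by
  have := kd_finite_V W hfin
  have h1 : HasEnoughRootsOfUnity L p := kd_hasEnough (L := L) hζ
  have : HasEnoughRootsOfUnity L (Monoid.exponent (kd_V W p)) :=
    HasEnoughRootsOfUnity.of_dvd L (kd_exponent_V_dvd W)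
  exact CommGroup.card_monoidHom_of_hasEnoughRootsOfUnity (kd_V W p) L

include hζ hroot hgen hfin in
/-- `Gal(L/K)` is finite when `W Kˣᵖ / Kˣᵖ` is. -/
theorem kd_finite_aut : Finite (L ≃ₐ[K] L) := by
  have := kd_finite_V W hfin
  have h1 : Nat.card (kd_V W p →* Lˣ) ≠ 0 := by
    rw [kd_card_hom_V hζ W hfin]
    exact Nat.card_pos.ne'
  have : Finite (kd_V W p →* Lˣ) := Nat.finite_of_card_ne_zero h1
  exact Finite.of_injective _ (kd_lift_injective hζ W hroot hgen)

include hζ hroot hgen hfin in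
theorem kd_card_aut_le : Nat.card (L ≃ₐ[K] L) ≤ (powMonoidHom p : Kˣ →* Kˣ).range.relIndex W := by
  have := kd_finite_V W hfin
  have h1 : Nat.card (kd_V W p →* Lˣ) ≠ 0 := by
    rw [kd_card_hom_V hζ W hfin]
    exact Nat.card_pos.ne'
  have : Finite (kd_V W p →* Lˣ) := Nat.finite_of_card_ne_zero h1
  rw [← kd_card_V W, ← kd_card_hom_V (L := L) hζ W hfin]
  exact Nat.card_le_card_of_injective _ (kd_lift_injective hζ W hroot hgen)

include hζ hroot hgen in
/-- `Gal(L/K)` as a commutative group (a definition, not an instance). -/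
@[reducible] noncomputable def kd_commGroup : CommGroup (L ≃ₐ[K] L) :=
  { (inferInstance : Group (L ≃ₐ[K] L)) with mul_comm := kd_comm hζ W hroot hgen }

include hgen in
theorem kd_ker_flip :
    (kd_pair hζ W hroot).flip.ker = (powMonoidHom p : Kˣ →* Kˣ).range.subgroupOf W := by
  ext w
  rw [MonoidHom.mem_ker, Subgroup.mem_subgroupOf, ← kd_pair_right_eq_one_iff hζ W hroot hgen w]
  constructor
  · intro h σ
    have := congrArg (fun f : (L ≃ₐ[K] L) →* Lˣ => f σ) h
    simpa using this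
  · intro h
    ext σ
    simpa using congrArg Units.val (h σ)

include hζ hroot hgen hfin in
theorem kd_card_aut_ge : (powMonoidHom p : Kˣ →* Kˣ).range.relIndex W ≤ Nat.card (L ≃ₐ[K] L) := by
  have hG : Finite (L ≃ₐ[K] L) := kd_finite_aut hζ W hroot hgen hfin
  let _ : CommGroup (L ≃ₐ[K] L) := kd_commGroup hζ W hroot hgen
  have hexp : Monoid.exponent (L ≃ₐ[K] L) ∣ p :=
    Monoid.exponent_dvd_of_forall_pow_eq_one (kd_pow_eq_one hζ W hroot hgen)
  have h1 : HasEnoughRootsOfUnity L p := kd_hasEnough (L := L) hζ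
  have : HasEnoughRootsOfUnity L (Monoid.exponent (L ≃ₐ[K] L)) :=
    HasEnoughRootsOfUnity.of_dvd L hexp
  have hcard : Nat.card ((L ≃ₐ[K] L) →* Lˣ) = Nat.card (L ≃ₐ[K] L) :=
    CommGroup.card_monoidHom_of_hasEnoughRootsOfUnity (L ≃ₐ[K] L) L
  have hfinHom : Finite ((L ≃ₐ[K] L) →* Lˣ) :=
    Nat.finite_of_card_ne_zero (by rw [hcard]; exact Nat.card_pos.ne')
  calc (powMonoidHom p : Kˣ →* Kˣ).range.relIndex W
      = ((kd_pair hζ W hroot).flip.ker).index := by rw [kd_ker_flip hζ W hroot hgen]; rfl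
    _ = Nat.card (kd_pair hζ W hroot).flip.range := Subgroup.index_ker _
    _ ≤ Nat.card ((L ≃ₐ[K] L) →* Lˣ) := Nat.card_le_card_of_injective _ Subtype.val_injective
    _ = Nat.card (L ≃ₐ[K] L) := hcard

include hζ hroot hgen hfin in
/-- **Kummer degree formula**, automorphism form: `|Gal(L/K)| = |W Kˣᵖ / Kˣᵖ|`. -/
theorem kd_card_aut :
    Nat.card (L ≃ₐ[K] L) = (powMonoidHom p : Kˣ →* Kˣ).range.relIndex W :=
  le_antisymm (kd_card_aut_le hζ W hroot hgen hfin) (kd_card_aut_ge hζ W hroot hgen hfin)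

include hζ hroot hgen hfin in
/-- `L / K` is finite-dimensional when `W Kˣᵖ / Kˣᵖ` is finite. -/
theorem kd_finiteDimensional : FiniteDimensional K L := by
  have := kd_isGalois hζ W hgen
  have := kd_finite_aut hζ W hroot hgen hfin
  exact IsGalois.finiteDimensional_of_finite K L

include hζ hroot hgen hfin in
/-- **Kummer degree formula**: `[L : K] = |W Kˣᵖ / Kˣᵖ|`. -/
theorem kd_finrank :
    Module.finrank K L = (powMonoidHom p : Kˣ →* Kˣ).range.relIndex W := by
  have := kd_isGalois hζ W hgen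
  have := kd_finiteDimensional hζ W hroot hgen hfin
  rw [← IsGalois.card_aut_eq_finrank K L]
  exact kd_card_aut hζ W hroot hgen hfin

end Count

section Ambient

variable {K Ω : Type*} [Field K] [Field Ω] [Algebra K Ω] {p : ℕ} [hp : Fact p.Prime]
  {ζ : K} (hζ : IsPrimitiveRoot ζ p) (W : Subgroup Kˣ)
  (hΩ : ∀ w ∈ W, ∃ y : Ω, y ^ p = algebraMap K Ω ((w : Kˣ) : K))

/-- The Kummer extension `K(W^{1/p})` inside an ambient field `Ω`. -/
def kd_field (W : Subgroup Kˣ) (Ω : Type*) [Field Ω] [Algebra K Ω] (p : ℕ) :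
    IntermediateField K Ω :=
  IntermediateField.adjoin K (kd_roots W Ω p)

omit hp in
theorem kd_roots_subset_field : kd_roots W Ω p ⊆ (kd_field W Ω p : Set Ω) :=
  IntermediateField.subset_adjoin K _

omit hp in
theorem kd_mem_roots_field_iff (y : kd_field W Ω p) :
    y ∈ kd_roots W (kd_field W Ω p) p ↔ (y : Ω) ∈ kd_roots W Ω p := by
  constructor
  · rintro ⟨w, hw, hy⟩
    refine ⟨w, hw, ?_⟩
    have := congrArg (Subtype.val : kd_field W Ω p → Ω) hy
    simpa using this
  · rintro ⟨w, hw, hy⟩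
    refine ⟨w, hw, ?_⟩
    apply Subtype.ext
    simpa using hy

include hΩ in
omit hp in
theorem kd_field_hroot :
    ∀ w ∈ W, ∃ y : kd_field W Ω p, y ^ p = algebraMap K (kd_field W Ω p) ((w : Kˣ) : K) := by
  intro w hw
  obtain ⟨y, hy⟩ := hΩ w hw
  refine ⟨⟨y, kd_roots_subset_field W ⟨w, hw, hy⟩⟩, ?_⟩
  apply Subtype.ext
  simpa using hy

omit hp in
theorem kd_field_hgen :
    IntermediateField.adjoin K (kd_roots W (kd_field W Ω p) p) = ⊤ := by
  apply IntermediateField.map_injective (kd_field W Ω p).val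
  rw [IntermediateField.adjoin_map]
  have himg : (kd_field W Ω p).val '' kd_roots W (kd_field W Ω p) p = kd_roots W Ω p := by
    ext y
    constructor
    · rintro ⟨z, hz, rfl⟩
      exact (kd_mem_roots_field_iff W z).mp hz
    · intro hy
      exact ⟨⟨y, kd_roots_subset_field W hy⟩,
        (kd_mem_roots_field_iff W _).mpr hy, rfl⟩
  rw [himg]
  show kd_field W Ω p = _
  rw [← AlgHom.fieldRange_eq_map, IntermediateField.fieldRange_val]

include hζ in
/-- `K(W^{1/p}) / K` is Galois. -/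
theorem kd_field_isGalois : IsGalois K (kd_field W Ω p) :=
  kd_isGalois hζ W (kd_field_hgen W)

include hζ hΩ in
/-- `[K(W^{1/p}) : K] = |W Kˣᵖ / Kˣᵖ|`. -/
theorem kd_field_finrank (hfin : (powMonoidHom p : Kˣ →* Kˣ).range.relIndex W ≠ 0) :
    Module.finrank K (kd_field W Ω p) = (powMonoidHom p : Kˣ →* Kˣ).range.relIndex W :=
  kd_finrank hζ W (kd_field_hroot W hΩ) (kd_field_hgen W) hfin

include hζ hΩ in
theorem kd_field_finiteDimensional
    (hfin : (powMonoidHom p : Kˣ →* Kˣ).range.relIndex W ≠ 0) :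
    FiniteDimensional K (kd_field W Ω p) :=
  kd_finiteDimensional hζ W (kd_field_hroot W hΩ) (kd_field_hgen W) hfin

end Ambient

end Fermat.Agent.S55
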