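/-
S55 / Kummer / Pairing : complements to `Kummer/Degree.lean` (helper29's `kd_` API), prefix `kdp_`.

* `kdp_lift_bijective` : perfectness in the first variable (every character of `W` which is trivial
  on `W ∩ Kˣᵖ` is `kd_pair σ` for a unique `σ ∈ Gal(L/K)`);
* `kdp_flip_surjective` : perfectness in the second variable (every character of `Gal(L/K)` is
  `σ ↦ kd_pair σ w` for some `w ∈ W`);
* `kdp_relIndex_ne_zero` : converse finiteness; `kdp_relIndex_ne_zero_of_fg`;
* `kdp_pairK` : the `μ_p(K)`-valued form of the pairing.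
-/
import Fermat.Agent.S55.Kummer.Degree

namespace Fermat.Agent.S55

open IntermediateField Polynomial

section KummerPairing

variable {K L : Type*} [Field K] [Field L] [Algebra K L] {p : ℕ} [hp : Fact p.Prime]
  {ζ : K} (hζ : IsPrimitiveRoot ζ p) (W : Subgroup Kˣ)
  (hroot : ∀ w ∈ W, ∃ y : L, y ^ p = algebraMap K L ((w : Kˣ) : K))
  (hgen : IntermediateField.adjoin K (kd_roots W L p) = ⊤)

/-- finitely generated `W` have finite image in `Kˣ / Kˣᵖ`. -/
theorem kdp_relIndex_ne_zero_of_fg (hW : W.FG) :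
    (powMonoidHom p : Kˣ →* Kˣ).range.relIndex W ≠ 0 := by
  have : Group.FG W := (Group.fg_iff_subgroup_fg W).2 hW
  have : Finite (kd_V W p) :=
    CommGroup.finite_of_fg_isMulTorsion _ (fun a =>
      isOfFinOrder_iff_pow_eq_one.2 ⟨p, hp.out.pos, kd_V_pow W a⟩)
  rw [← kd_card_V]
  exact Nat.card_pos.ne'

include hζ hroot hgen in
/-- characters of the finite group `Gal(L/K)` (abelian of exponent `p`). -/
theorem kdp_card_hom_aut [Finite (L ≃ₐ[K] L)] :
    Finite ((L ≃ₐ[K] L) →* Lˣ) ∧ Nat.card ((L ≃ₐ[K] L) →* Lˣ) = Nat.card (L ≃ₐ[K] L) := by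
  let _ : CommGroup (L ≃ₐ[K] L) := kd_commGroup hζ W hroot hgen
  have hexp : Monoid.exponent (L ≃ₐ[K] L) ∣ p :=
    Monoid.exponent_dvd_of_forall_pow_eq_one (kd_pow_eq_one hζ W hroot hgen)
  have h1 : HasEnoughRootsOfUnity L p := kd_hasEnough (L := L) hζ
  have : HasEnoughRootsOfUnity L (Monoid.exponent (L ≃ₐ[K] L)) :=
    HasEnoughRootsOfUnity.of_dvd L hexp
  have hcard : Nat.card ((L ≃ₐ[K] L) →* Lˣ) = Nat.card (L ≃ₐ[K] L) :=
    CommGroup.card_monoidHom_of_hasEnoughRootsOfUnity (L ≃ₐ[K] L) L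
  exact ⟨Nat.finite_of_card_ne_zero (by rw [hcard]; exact Nat.card_pos.ne'), hcard⟩

include hζ hroot hgen in
/-- converse finiteness: if `L / K` is finite then `W Kˣᵖ / Kˣᵖ` is finite. -/
theorem kdp_relIndex_ne_zero [FiniteDimensional K L] :
    (powMonoidHom p : Kˣ →* Kˣ).range.relIndex W ≠ 0 := by
  have hG : Finite (L ≃ₐ[K] L) := inferInstance
  obtain ⟨hfin, -⟩ := kdp_card_hom_aut hζ W hroot hgen
  have : Finite (W ⧸ (kd_pair hζ W hroot).flip.ker) :=
    Finite.of_injective _ (QuotientGroup.kerLift_injective (kd_pair hζ W hroot).flip)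
  rw [kd_ker_flip hζ W hroot hgen] at this
  rw [← kd_card_V]
  exact Nat.card_pos.ne'

variable (hfin : (powMonoidHom p : Kˣ →* Kˣ).range.relIndex W ≠ 0)

include hfin in
/-- PERFECTNESS, first variable: `σ ↦ kd_lift σ` is a bijection from `Gal(L/K)` onto the characters
of `W / (W ∩ Kˣᵖ)`. -/
theorem kdp_lift_bijective : Function.Bijective (kd_lift hζ W hroot hgen) := by
  have := kd_finite_V W hfin
  have h1 : Nat.card (kd_V W p →* Lˣ) = Nat.card (kd_V W p) := kd_card_hom_V hζ W hfin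
  have : Finite (kd_V W p →* Lˣ) :=
    Nat.finite_of_card_ne_zero (by rw [h1]; exact Nat.card_pos.ne')
  refine (kd_lift_injective hζ W hroot hgen).bijective_of_nat_card_le ?_
  rw [h1, kd_card_V, kd_card_aut hζ W hroot hgen hfin]

include hgen hfin in
/-- every character of `W` with values in `Lˣ` which is trivial on `W ∩ Kˣᵖ` is `kd_pair σ`. -/
theorem kdp_exists_of_char (χ : W →* Lˣ)
    (hχ : ∀ w : W, (w : Kˣ) ∈ (powMonoidHom p : Kˣ →* Kˣ).range → χ w = 1) :
    ∃ σ : L ≃ₐ[K] L, kd_pair hζ W hroot σ = χ := by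
  obtain ⟨σ, hσ⟩ := (kdp_lift_bijective hζ W hroot hgen hfin).2
    (QuotientGroup.lift _ χ (fun w hw => hχ w (Subgroup.mem_subgroupOf.1 hw)))
  refine ⟨σ, ?_⟩
  ext w
  have := DFunLike.congr_fun hσ (QuotientGroup.mk w)
  rw [kd_lift_mk] at this
  rw [this]; rfl

include hgen hfin in
/-- PERFECTNESS, second variable: every character of `Gal(L/K)` is `σ ↦ kd_pair σ w` for some
`w ∈ W`. -/
theorem kdp_flip_surjective : Function.Surjective (kd_pair hζ W hroot).flip := by
  have hG : Finite (L ≃ₐ[K] L) := kd_finite_aut hζ W hroot hgen hfin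
  obtain ⟨hfH, hcH⟩ := kdp_card_hom_aut hζ W hroot hgen
  have hbij : Function.Bijective (QuotientGroup.kerLift (kd_pair hζ W hroot).flip) := by
    refine (QuotientGroup.kerLift_injective _).bijective_of_nat_card_le ?_
    rw [hcH, kd_card_aut hζ W hroot hgen hfin, ← kd_card_V]
    exact (Nat.card_congr
      (QuotientGroup.quotientMulEquivOfEq (kd_ker_flip hζ W hroot hgen).symm).toEquiv).le
  intro χ
  obtain ⟨a, ha⟩ := hbij.2 χ
  obtain ⟨w, rfl⟩ := QuotientGroup.mk_surjective a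
  exact ⟨w, ha⟩

end KummerPairing

section MuK

variable {K L : Type*} [Field K] [Field L] [Algebra K L] {p : ℕ} [hp : Fact p.Prime]
  {ζ : K} (hζ : IsPrimitiveRoot ζ p)

/-- the inclusion `μ_p(K) → Lˣ`. -/
def kdp_mu (p : ℕ) (K L : Type*) [Field K] [Field L] [Algebra K L] : rootsOfUnity p K →* Lˣ :=
  (Units.map (algebraMap K L : K →* L)).comp (rootsOfUnity p K).subtype

omit hp in
theorem kdp_mu_coe (r : rootsOfUnity p K) :
    ((kdp_mu p K L r : Lˣ) : L) = algebraMap K L (((r : Kˣ) : K)) := rfl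

omit hp in
theorem kdp_mu_injective : Function.Injective (kdp_mu p K L) := by
  intro r s h
  have := congrArg Units.val h
  rw [kdp_mu_coe, kdp_mu_coe] at this
  exact Subtype.ext (Units.ext ((algebraMap K L).injective this))

include hζ in
theorem kdp_exists_mu (x : Lˣ) (hx : x ^ p = 1) : ∃ r : rootsOfUnity p K, kdp_mu p K L r = x := by
  have hx' : (x : L) ^ p = 1 := by rw [← Units.val_pow_eq_pow_val, hx, Units.val_one]
  obtain ⟨c, hc⟩ := kd_rootOfUnity_mem hζ hx'
  have hc0 : c ≠ 0 := by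
    rintro rfl
    rw [map_zero] at hc
    exact x.ne_zero hc.symm
  have hcp : c ^ p = 1 := by
    apply (algebraMap K L).injective
    rw [map_pow, hc, hx', map_one]
  refine ⟨⟨Units.mk0 c hc0, ?_⟩, ?_⟩
  · rw [mem_rootsOfUnity]
    exact Units.ext (by simpa using hcp)
  · exact Units.ext (by rw [kdp_mu_coe]; simpa using hc)

/-- a homomorphism into `Lˣ` with values of exponent `p` factors through `μ_p(K)`. -/
noncomputable def kdp_codRestrict {M : Type*} [Monoid M] (f : M →* Lˣ)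
    (hf : ∀ m, f m ^ p = 1) : M →* rootsOfUnity p K where
  toFun m := (kdp_exists_mu hζ (f m) (hf m)).choose
  map_one' := by
    apply kdp_mu_injective (L := L)
    rw [(kdp_exists_mu hζ (f 1) (hf 1)).choose_spec, map_one, map_one]
  map_mul' a b := by
    apply kdp_mu_injective (L := L)
    rw [(kdp_exists_mu hζ (f (a * b)) (hf (a * b))).choose_spec, map_mul, map_mul,
      (kdp_exists_mu hζ (f a) (hf a)).choose_spec, (kdp_exists_mu hζ (f b) (hf b)).choose_spec]

theorem kdp_mu_codRestrict {M : Type*} [Monoid M] (f : M →* Lˣ) (hf : ∀ m, f m ^ p = 1) (m : M) :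
    kdp_mu p K L (kdp_codRestrict hζ f hf m) = f m :=
  (kdp_exists_mu hζ (f m) (hf m)).choose_spec

variable (W : Subgroup Kˣ)
  (hroot : ∀ w ∈ W, ∃ y : L, y ^ p = algebraMap K L ((w : Kˣ) : K))

/-- the `μ_p(K)`-valued Kummer pairing. -/
noncomputable def kdp_pairK : (L ≃ₐ[K] L) →* (W →* rootsOfUnity p K) where
  toFun σ := kdp_codRestrict hζ (kd_pair hζ W hroot σ) (kd_pair_pow hζ W hroot σ)
  map_one' := by
    ext w
    have h : kdp_mu p K L (kdp_codRestrict hζ (kd_pair hζ W hroot 1)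
        (kd_pair_pow hζ W hroot 1) w) = kdp_mu p K L 1 := by
      rw [kdp_mu_codRestrict, map_one, map_one]; rfl
    rw [kdp_mu_injective h]; rfl
  map_mul' σ τ := by
    ext w
    have h : kdp_mu p K L (kdp_codRestrict hζ (kd_pair hζ W hroot (σ * τ))
        (kd_pair_pow hζ W hroot (σ * τ)) w) =
        kdp_mu p K L (kdp_codRestrict hζ (kd_pair hζ W hroot σ) (kd_pair_pow hζ W hroot σ) w *
          kdp_codRestrict hζ (kd_pair hζ W hroot τ) (kd_pair_pow hζ W hroot τ) w) := by
      rw [map_mul (kdp_mu p K L), kdp_mu_codRestrict, kdp_mu_codRestrict, kdp_mu_codRestrict,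
        map_mul (kd_pair hζ W hroot)]; rfl
    rw [kdp_mu_injective h]; rfl

theorem kdp_mu_pairK (σ : L ≃ₐ[K] L) (w : W) :
    kdp_mu p K L (kdp_pairK hζ W hroot σ w) = kd_pair hζ W hroot σ w :=
  kdp_mu_codRestrict hζ (kd_pair hζ W hroot σ) (kd_pair_pow hζ W hroot σ) w

/-- `σ y = ⟨σ, w⟩ · y` for every `p`-th root `y` of `w`. -/
theorem kdp_pairK_spec (σ : L ≃ₐ[K] L) (w : W) {y : L}
    (hy : y ^ p = algebraMap K L ((w : Kˣ) : K)) :
    algebraMap K L (((kdp_pairK hζ W hroot σ w : rootsOfUnity p K) : Kˣ) : K) * y = σ y := by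
  have hy0 : y ≠ 0 := by
    intro h
    rw [h, zero_pow hp.out.ne_zero] at hy
    exact (w : Kˣ).ne_zero ((map_eq_zero (algebraMap K L)).mp hy.symm)
  rw [← kdp_mu_coe, kdp_mu_pairK, kd_pair_apply hζ W hroot σ w hy, div_mul_cancel₀ _ hy0]

end MuK

end Fermat.Agent.S55
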