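import Fermat.Agent.S55.Kummer.SUnitDegree
import Fermat.Agent.S55.Kummer.Pairing
import Fermat.Agent.S55.Places.Galois
import Fermat.Agent.S55.Idele.SUnitSeam
import Fermat.Agent.S55.Idele.LevelTransition

/-!
# S55, block G5 (G-abs), leaf T1: the field-theoretic side of `(E1')` (prefix `kaf_`)

* `kaf_I S`: the (normal) subgroup of `Gal(ℚ̄/ℚ)` generated by all inertia groups at the primes
  outside `S`; `kaf_unr S F = F ⊓ fixedField (kaf_I S)` is the maximal subfield of `F` unramified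
  outside `S`.
* `kaf_maxUnram`: for a finite Galois `L'/ℚ` inside `ℚ̄` containing `du_kz S` the field
  `kaf_unr S L'` is a level for `S`, contains every subfield of `L'` unramified outside `S`, and
  `Gal(L'/L)` is generated by the inertia groups of `Gal(L'/ℚ)` at the primes outside `S`.
* `kaf_exists_kummerLevel`: for a finite Galois `K/ℚ` unramified outside `S' ∋ p` containing a
  primitive `p`-th root of unity, `L' = K(E_{S'}(K)^{1/p})` is finite Galois over `ℚ`, unramified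
  outside `S'`, `Gal(L'/K)` is abelian of exponent `p` and of order `|E_{S'} Kˣᵖ / Kˣᵖ|`.

All carriers are FIELDS (`IntermediateField ℚ ℚ̄`), not `du_Lev` (ruling #6 of M7): the auxiliary
set `S'` does not satisfy the cyclotomic condition of `du_Lev`.
-/

set_option autoImplicit false
set_option linter.style.haveILetI false
set_option linter.unusedSectionVars false

open IntermediateField
open scoped Pointwise NumberField

noncomputable section

namespace Fermat.Agent.S55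

local notation "GQ" => (AlgebraicClosure ℚ ≃ₐ[ℚ] AlgebraicClosure ℚ)
local notation "Qbar" => AlgebraicClosure ℚ

/-! ### The subgroup generated by the inertia groups outside `S` -/

/-- All inertia elements of `Gal(ℚ̄/ℚ)` at the primes outside `S`. -/
def kaf_inertiaSet (S : Finset Nat.Primes) : Set GQ :=
  {σ | ∃ (q : Nat.Primes) (A : ValuationSubring Qbar), q ∉ S ∧ A.LiesOverPrime (q : ℕ) ∧
    σ ∈ A.inertiaSubgroupIn ℚ}

/-- The subgroup of `Gal(ℚ̄/ℚ)` generated by all inertia groups at the primes outside `S`. -/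
def kaf_I (S : Finset Nat.Primes) : Subgroup GQ := Subgroup.closure (kaf_inertiaSet S)

theorem kaf_inertia_le_I {S : Finset Nat.Primes} {q : Nat.Primes} (hq : q ∉ S)
    (A : ValuationSubring Qbar) (hA : A.LiesOverPrime (q : ℕ)) :
    A.inertiaSubgroupIn ℚ ≤ kaf_I S := fun _ hσ =>
  Subgroup.subset_closure ⟨q, A, hq, hA, hσ⟩

/-- A finite extension is unramified outside `S` iff it is fixed by `kaf_I S`. -/
theorem kaf_isUnramifiedOutside_iff (S : Finset Nat.Primes) (F : IntermediateField ℚ Qbar)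
    [FiniteDimensional ℚ F] : F.IsUnramifiedOutside S ↔ kaf_I S ≤ F.fixingSubgroup := by
  constructor
  · intro hF
    rw [kaf_I, Subgroup.closure_le]
    rintro σ ⟨q, A, hq, hA, hσ⟩
    exact hF.2 q hq A hA hσ
  · intro h
    exact ⟨inferInstance, fun q hq A hA => (kaf_inertia_le_I hq A hA).trans h⟩

/-- The maximal subfield of `F` unramified outside `S`. -/
def kaf_unr (S : Finset Nat.Primes) (F : IntermediateField ℚ Qbar) : IntermediateField ℚ Qbar :=
  F ⊓ IntermediateField.fixedField (kaf_I S)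

theorem kaf_unr_le (S : Finset Nat.Primes) (F : IntermediateField ℚ Qbar) : kaf_unr S F ≤ F :=
  inf_le_left

theorem kaf_mem_unr_iff (S : Finset Nat.Primes) (F : IntermediateField ℚ Qbar) (x : Qbar) :
    x ∈ kaf_unr S F ↔ x ∈ F ∧ ∀ σ ∈ kaf_I S, σ x = x := by
  rw [kaf_unr, IntermediateField.mem_inf, IntermediateField.mem_fixedField_iff]

theorem kaf_I_le_fixingSubgroup_unr (S : Finset Nat.Primes) (F : IntermediateField ℚ Qbar) :
    kaf_I S ≤ (kaf_unr S F).fixingSubgroup := by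
  intro σ hσ
  rw [IntermediateField.mem_fixingSubgroup_iff]
  intro x hx
  exact ((kaf_mem_unr_iff S F x).1 hx).2 σ hσ

theorem kaf_unr_isUnramifiedOutside (S : Finset Nat.Primes) (F : IntermediateField ℚ Qbar)
    [FiniteDimensional ℚ F] : (kaf_unr S F).IsUnramifiedOutside S := by
  haveI : FiniteDimensional ℚ (kaf_unr S F) :=
    FiniteDimensional.of_injective (IntermediateField.inclusion (kaf_unr_le S F)).toLinearMap
      (IntermediateField.inclusion_injective (kaf_unr_le S F))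
  exact (kaf_isUnramifiedOutside_iff S _).2 (kaf_I_le_fixingSubgroup_unr S F)

/-- Every subfield of `F` unramified outside `S` lies in `kaf_unr S F`. -/
theorem kaf_le_unr {S : Finset Nat.Primes} {F K : IntermediateField ℚ Qbar} (hKF : K ≤ F)
    (hK : K.IsUnramifiedOutside S) : K ≤ kaf_unr S F := by
  haveI := hK.1
  intro x hx
  rw [kaf_mem_unr_iff]
  refine ⟨hKF hx, fun σ hσ => ?_⟩
  have := (kaf_isUnramifiedOutside_iff S K).1 hK hσ
  rw [IntermediateField.mem_fixingSubgroup_iff] at this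
  exact this x hx

/-! ### Normality -/

theorem kaf_conj_mem_inertiaSet {S : Finset Nat.Primes} (τ : GQ) {σ : GQ}
    (hσ : σ ∈ kaf_inertiaSet S) : τ * σ * τ⁻¹ ∈ kaf_inertiaSet S := by
  obtain ⟨q, A, hq, hA, hσA⟩ := hσ
  exact ⟨q, τ • A, hq, tl_liesOverPrime_smul τ A q hA, tl_inertia_conj A τ σ hσA⟩

instance kaf_I_normal (S : Finset Nat.Primes) : (kaf_I S).Normal := by
  refine ⟨fun σ hσ τ => ?_⟩
  have h : kaf_I S ≤ (kaf_I S).comap (MulAut.conj τ).toMonoidHom := by
    rw [kaf_I, Subgroup.closure_le]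
    intro ρ hρ
    show τ * ρ * τ⁻¹ ∈ Subgroup.closure (kaf_inertiaSet S)
    exact Subgroup.subset_closure (kaf_conj_mem_inertiaSet τ hρ)
  exact h hσ

/-- `kaf_unr S F` is stable under `Gal(ℚ̄/ℚ)` when `F` is. -/
theorem kaf_map_mem_unr {S : Finset Nat.Primes} {F : IntermediateField ℚ Qbar}
    (hF : ∀ (τ : GQ) (x : Qbar), x ∈ F → τ x ∈ F) (τ : GQ) {x : Qbar} (hx : x ∈ kaf_unr S F) :
    τ x ∈ kaf_unr S F := by
  rw [kaf_mem_unr_iff] at hx ⊢
  refine ⟨hF τ x hx.1, fun σ hσ => ?_⟩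
  have h1 : τ⁻¹ * σ * τ⁻¹⁻¹ ∈ kaf_I S := (kaf_I_normal S).conj_mem σ hσ τ⁻¹
  have h2 := hx.2 _ h1
  rw [inv_inv] at h2
  have h3 : τ⁻¹ (σ (τ x)) = x := h2
  have := congrArg τ h3
  rwa [show τ (τ⁻¹ (σ (τ x))) = σ (τ x) from τ.apply_symm_apply _] at this

theorem kaf_qbar_normal : Normal ℚ Qbar := by
  haveI : Algebra.IsAlgebraic ℚ Qbar := AlgebraicClosure.isAlgebraic ℚ
  haveI : IsAlgClosure ℚ Qbar := ⟨inferInstance, inferInstance⟩
  exact IsAlgClosure.normal ℚ Qbar

/-- A `Gal(ℚ̄/ℚ)`-stable intermediate field is normal over `ℚ`. -/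
theorem kaf_normal_of_stable {F : IntermediateField ℚ Qbar}
    (hF : ∀ (τ : GQ) (x : Qbar), x ∈ F → τ x ∈ F) : Normal ℚ F := by
  haveI := kaf_qbar_normal
  refine (IntermediateField.normal_iff_forall_map_le' (K := F)).2 ?_
  rintro τ _ ⟨x, hx, rfl⟩
  exact hF τ x hx

/-- A normal intermediate field is `Gal(ℚ̄/ℚ)`-stable. -/
theorem kaf_stable_of_normal (F : IntermediateField ℚ Qbar) (hF : Normal ℚ F) (τ : GQ) (x : Qbar)
    (hx : x ∈ F) : τ x ∈ F := by
  haveI := kaf_qbar_normal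
  have h := (IntermediateField.normal_iff_forall_map_le' (K := F)).1 hF τ
  exact h ⟨x, hx, rfl⟩

theorem kaf_unr_normal (S : Finset Nat.Primes) (F : IntermediateField ℚ Qbar) (hF : Normal ℚ F) :
    Normal ℚ (kaf_unr S F) :=
  kaf_normal_of_stable fun τ _ hx => kaf_map_mem_unr (kaf_stable_of_normal F hF) τ hx

/-! ### The maximal subfield unramified outside `S` of a finite Galois extension -/

theorem kaf_restrict_coe (L' : IntermediateField ℚ Qbar) [Normal ℚ L'] (σ : GQ) (x : L') :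
    ((AlgEquiv.restrictNormalHom L' σ x : L') : Qbar) = σ (x : Qbar) :=
  AlgEquiv.restrictNormal_commutes σ L' x

section MaxUnram

variable (S : Finset Nat.Primes) (L' : IntermediateField ℚ Qbar) [FiniteDimensional ℚ L']
  [Normal ℚ L']

/-- A finite normal subextension of `ℚ̄/ℚ` is Galois (not an instance: use `haveI`). -/
theorem kaf_isGalois : IsGalois ℚ L' := ⟨⟩

/-- A finite subextension of `ℚ̄/ℚ` is a number field (not an instance: use `haveI`). -/
theorem kaf_numberField (F : IntermediateField ℚ Qbar) [FiniteDimensional ℚ F] :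
    NumberField F := ⟨⟩

/-- `Gal(L'/L)`, `L` the maximal subfield unramified outside `S`, is the image of `kaf_I S`. -/
theorem kaf_map_fixingSubgroup_unr :
    (kaf_unr S L').fixingSubgroup.map (AlgEquiv.restrictNormalHom L') =
      (kaf_I S).map (AlgEquiv.restrictNormalHom L') := by
  haveI := kaf_isGalois L'
  apply le_antisymm
  · rintro g ⟨τ, hτ, rfl⟩
    rw [← IntermediateField.fixingSubgroup_fixedField
      ((kaf_I S).map (AlgEquiv.restrictNormalHom L')), IntermediateField.mem_fixingSubgroup_iff]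
    intro x hx
    rw [IntermediateField.mem_fixedField_iff] at hx
    have hxu : (x : Qbar) ∈ kaf_unr S L' := by
      rw [kaf_mem_unr_iff]
      refine ⟨x.2, fun σ hσ => ?_⟩
      rw [← kaf_restrict_coe L' σ x, hx (AlgEquiv.restrictNormalHom L' σ) ⟨σ, hσ, rfl⟩]
    have hτ' : τ ∈ (kaf_unr S L').fixingSubgroup := hτ
    rw [IntermediateField.mem_fixingSubgroup_iff] at hτ'
    apply Subtype.ext
    rw [kaf_restrict_coe]
    exact hτ' _ hxu
  · exact Subgroup.map_mono (kaf_I_le_fixingSubgroup_unr S L')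

/-- The image of the inertia set in `Gal(L'/ℚ)` in terms of the primes of `𝓞 L'`. -/
theorem kaf_image_inertiaSet [NumberField L'] :
    (AlgEquiv.restrictNormalHom L' : GQ →* (L' ≃ₐ[ℚ] L')) '' kaf_inertiaSet S =
      {σ | ∃ (q : Nat.Primes) (A : ValuationSubring Qbar), q ∉ S ∧ A.LiesOverPrime (q : ℕ) ∧
        σ ∈ (pl_ideal L' A).toAddSubgroup.inertia (L' ≃ₐ[ℚ] L')} := by
  haveI := kaf_isGalois L'
  ext g
  constructor
  · rintro ⟨σ, ⟨q, A, hq, hA, hσ⟩, rfl⟩
    refine ⟨q, A, hq, hA, ?_⟩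
    rw [← pl_map_inertia L' A q.2 hA]
    exact ⟨σ, hσ, rfl⟩
  · rintro ⟨q, A, hq, hA, hg⟩
    rw [← pl_map_inertia L' A q.2 hA] at hg
    obtain ⟨σ, hσ, rfl⟩ := hg
    exact ⟨σ, ⟨q, A, hq, hA, hσ⟩, rfl⟩

/-- The maximal subfield of `L'` unramified outside `S`, as a level for `S` (ruling #5: the level
must contain `du_kz S`). -/
def kaf_unrLev (hcyc : du_kz S ≤ L') : du_Lev S where
  L := kaf_unr S L'
  unr := kaf_unr_isUnramifiedOutside S L'
  nor := kaf_unr_normal S L' inferInstance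
  cyc := kaf_le_unr hcyc (du_kz_unr S)

theorem kaf_unrLev_L (hcyc : du_kz S ≤ L') : (kaf_unrLev S L' hcyc).L = kaf_unr S L' := rfl

/-- The cyclotomic base fields are monotone in `S`. -/
theorem kaf_kz_mono {S S' : Finset Nat.Primes} (hSS' : S ⊆ S') : du_kz S ≤ du_kz S' := by
  unfold du_kz
  apply IntermediateField.adjoin.mono
  rintro x ⟨q, hq, hx⟩
  exact ⟨q, hSS' hq, hx⟩

/-- **T1 (b).** The maximal subfield `L` unramified outside `S` of a finite Galois `L'/ℚ`
containing `du_kz S` is a level for `S`; it contains every subfield of `L'` unramified outside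
`S`, and `Gal(L'/L)` is generated by the inertia groups of `Gal(L'/ℚ)` at the primes outside
`S`. -/
theorem kaf_maxUnram [NumberField L'] (hcyc : du_kz S ≤ L') :
    ∃ L : du_Lev S, L.L ≤ L' ∧
      (∀ F : IntermediateField ℚ Qbar, F ≤ L' → F.IsUnramifiedOutside S → F ≤ L.L) ∧
      L.L.fixingSubgroup.map (AlgEquiv.restrictNormalHom L') = Subgroup.closure
        {σ | ∃ (q : Nat.Primes) (A : ValuationSubring Qbar), q ∉ S ∧ A.LiesOverPrime (q : ℕ) ∧
          σ ∈ (pl_ideal L' A).toAddSubgroup.inertia (L' ≃ₐ[ℚ] L')} := by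
  refine ⟨kaf_unrLev S L' hcyc, kaf_unr_le S L', fun F hF hFu => kaf_le_unr hF hFu, ?_⟩
  rw [kaf_unrLev_L, kaf_map_fixingSubgroup_unr, kaf_I, MonoidHom.map_closure,
    kaf_image_inertiaSet]

end MaxUnram

/-! ### Dictionary: `Gal(L'/K)` inside `Gal(L'/ℚ)` -/

section Rel

variable {K L' : IntermediateField ℚ Qbar} [Normal ℚ L'] (h : K ≤ L')

/-- The inclusion `K ≤ L'` as an algebra structure. -/
@[reducible] def kaf_inclAlgebra : Algebra K L' :=
  (IntermediateField.inclusion h).toRingHom.toAlgebra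

theorem kaf_inclAlgebra_coe (x : K) :
    letI := kaf_inclAlgebra h
    ((algebraMap K L' x : L') : Qbar) = (x : Qbar) := rfl

/-- `Gal(L'/K) → Gal(L'/ℚ)`. -/
def kaf_resScalars : letI := kaf_inclAlgebra h; (L' ≃ₐ[K] L') →* (L' ≃ₐ[ℚ] L') :=
  letI := kaf_inclAlgebra h
  AlgEquiv.restrictScalarsHom ℚ

theorem kaf_resScalars_apply (g : letI := kaf_inclAlgebra h; L' ≃ₐ[K] L') (x : L') :
    kaf_resScalars h g x = g x := rfl

theorem kaf_resScalars_injective : Function.Injective (kaf_resScalars h) := by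
  letI := kaf_inclAlgebra h
  intro g g' hgg'
  apply AlgEquiv.ext
  intro x
  have := congrArg (fun f : L' ≃ₐ[ℚ] L' => f x) hgg'
  exact this

/-- The image of `Gal(ℚ̄/K)` in `Gal(L'/ℚ)` is the image of `Gal(L'/K)`. -/
theorem kaf_rel_eq_range :
    K.fixingSubgroup.map (AlgEquiv.restrictNormalHom L') = (kaf_resScalars h).range := by
  letI := kaf_inclAlgebra h
  ext g
  constructor
  · rintro ⟨τ, hτ, rfl⟩
    have hτ' : τ ∈ K.fixingSubgroup := hτ
    rw [IntermediateField.mem_fixingSubgroup_iff] at hτ'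
    have hfix : ∀ x : K, AlgEquiv.restrictNormalHom L' τ (algebraMap K L' x) =
        algebraMap K L' x := by
      intro x
      apply Subtype.ext
      rw [kaf_restrict_coe, kaf_inclAlgebra_coe]
      exact hτ' _ x.2
    refine ⟨{ (AlgEquiv.restrictNormalHom L' τ).toRingEquiv with commutes' := hfix }, ?_⟩
    ext x
    rfl
  · rintro ⟨g', rfl⟩
    obtain ⟨τ, hτ⟩ := tl_restrictNormalHom_surjective L' (kaf_resScalars h g')
    refine ⟨τ, ?_, hτ⟩
    show τ ∈ K.fixingSubgroup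
    rw [IntermediateField.mem_fixingSubgroup_iff]
    intro x hx
    have h1 : τ x = (((AlgEquiv.restrictNormalHom L' τ) ⟨x, h hx⟩ : L') : Qbar) :=
      (kaf_restrict_coe L' τ ⟨x, h hx⟩).symm
    rw [h1, hτ, kaf_resScalars_apply]
    have h2 : g' (algebraMap K L' ⟨x, hx⟩) = algebraMap K L' ⟨x, hx⟩ := g'.commutes _
    exact congrArg (Subtype.val) h2

theorem kaf_card_rel :
    Nat.card ↥(K.fixingSubgroup.map (AlgEquiv.restrictNormalHom L')) =
      Nat.card (letI := kaf_inclAlgebra h; L' ≃ₐ[K] L') := by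
  rw [kaf_rel_eq_range h]
  exact Nat.card_congr (Equiv.ofInjective _ (kaf_resScalars_injective h)).symm

end Rel

/-! ### The Kummer extension `K(E_{S'}(K)^{1/p})` -/

section Kummer

variable {S' : Finset Nat.Primes} (p : ℕ) [hp : Fact p.Prime] (K : IntermediateField ℚ Qbar)
  [NumberField K]

/-- All `p`-th roots in `ℚ̄` of the `S'`-units of `K`. -/
def kaf_roots (S' : Finset Nat.Primes) : Set Qbar :=
  {y | ∃ w ∈ id_ES S' ↥K, y ^ p = ((((w : (↥K)ˣ) : ↥K)) : Qbar)}

/-- The field `K(E_{S'}(K)^{1/p})` inside `ℚ̄`. -/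
def kaf_kummerField (S' : Finset Nat.Primes) : IntermediateField ℚ Qbar :=
  K ⊔ IntermediateField.adjoin ℚ (kaf_roots p K S')

theorem kaf_le_kummerField : K ≤ kaf_kummerField p K S' := le_sup_left

theorem kaf_roots_subset_kummerField : kaf_roots p K S' ⊆ (kaf_kummerField p K S' : Set Qbar) :=
  fun _ hy => (le_sup_right : _ ≤ kaf_kummerField p K S') (IntermediateField.subset_adjoin ℚ _ hy)

/-- The `S'`-units of a normal `K` are stable under `Gal(ℚ̄/ℚ)`. -/
theorem kaf_exists_unit_map [Normal ℚ K] (τ : GQ) {w : (↥K)ˣ} (hw : w ∈ id_ES S' ↥K) :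
    ∃ w' ∈ id_ES S' ↥K,
      ((((w' : (↥K)ˣ) : ↥K)) : Qbar) = τ ((((w : (↥K)ˣ) : ↥K)) : Qbar) := by
  have hne : (AlgEquiv.restrictNormalHom K τ) ((w : (↥K)ˣ) : ↥K) ≠ 0 := by
    rw [Ne, EmbeddingLike.map_eq_zero_iff]
    exact w.ne_zero
  refine ⟨Units.mk0 _ hne, ?_, ?_⟩
  · rw [ie_mem_ES_iff, Units.val_mk0, kaf_restrict_coe]
    exact ku_IsSUnit.map ((ie_mem_ES_iff S' K w).1 hw) τ
  · rw [Units.val_mk0, kaf_restrict_coe]

theorem kaf_map_mem_roots [Normal ℚ K] (τ : GQ) {y : Qbar} (hy : y ∈ kaf_roots p K S') :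
    τ y ∈ kaf_roots p K S' := by
  obtain ⟨w, hw, hyw⟩ := hy
  obtain ⟨w', hw', hww'⟩ := kaf_exists_unit_map K τ hw
  exact ⟨w', hw', by rw [← map_pow, hyw, hww']⟩

theorem kaf_kummerField_stable [hKn : Normal ℚ K] (τ : GQ) (x : Qbar)
    (hx : x ∈ kaf_kummerField p K S') : τ x ∈ kaf_kummerField p K S' := by
  have hle : kaf_kummerField p K S' ≤
      (kaf_kummerField p K S').comap (τ : Qbar →ₐ[ℚ] Qbar) := by
    refine sup_le ?_ ?_
    · intro z hz
      exact kaf_le_kummerField p K (kaf_stable_of_normal K hKn τ z hz)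
    · rw [IntermediateField.adjoin_le_iff]
      intro y hy
      exact kaf_roots_subset_kummerField p K (kaf_map_mem_roots p K τ hy)
  exact hle hx

theorem kaf_kummerField_normal [Normal ℚ K] : Normal ℚ (kaf_kummerField p K S') :=
  kaf_normal_of_stable (kaf_kummerField_stable p K)

/-- Inertia groups outside `S' ∋ p` fix `K(E_{S'}^{1/p})`. -/
theorem kaf_inertia_le_fixingSubgroup (hK : K.IsUnramifiedOutside S') (q : Nat.Primes)
    (hq : q ∉ S') (hqp : (q : ℕ) ≠ p)
    (A : ValuationSubring Qbar) (hA : A.LiesOverPrime (q : ℕ)) :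
    A.inertiaSubgroupIn ℚ ≤ (kaf_kummerField p K S').fixingSubgroup := by
  intro σ hσ
  have hσK : σ ∈ K.fixingSubgroup := hK.2 q hq A hA hσ
  rw [kaf_kummerField, IntermediateField.fixingSubgroup_sup]
  refine ⟨hσK, ku_mem_fixingSubgroup_adjoin ?_⟩
  rintro y ⟨w, hw, hyw⟩
  rw [IntermediateField.mem_fixingSubgroup_iff] at hσK
  refine ku_root_fixed hp.out q.2 hqp A hA hσ 1 (u := ((((w : (↥K)ˣ) : ↥K)) : Qbar)) ?_ ?_ ?_
  · exact hσK _ (SetLike.coe_mem _)
  · exact (ie_mem_ES_iff S' K w).1 hw q hq A hA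
  · rw [pow_one]; exact hyw

/-- `K(E_{S'}^{1/p})` as a `K`-algebra. -/
@[reducible] def kaf_alg (S' : Finset Nat.Primes) : Algebra ↥K ↥(kaf_kummerField p K S') :=
  (IntermediateField.inclusion (kaf_le_kummerField p K)).toRingHom.toAlgebra

theorem kaf_alg_coe (x : ↥K) :
    letI := kaf_alg p K S'
    ((algebraMap ↥K ↥(kaf_kummerField p K S') x : ↥(kaf_kummerField p K S')) : Qbar) =
      (x : Qbar) :=
  rfl

theorem kaf_hroot :
    letI := kaf_alg p K S'
    ∀ w ∈ id_ES S' ↥K, ∃ y : ↥(kaf_kummerField p K S'),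
      y ^ p = algebraMap ↥K ↥(kaf_kummerField p K S') ((w : (↥K)ˣ) : ↥K) := by
  letI := kaf_alg p K S'
  intro w hw
  obtain ⟨y, hy⟩ := IsAlgClosed.exists_pow_nat_eq ((((w : (↥K)ˣ) : ↥K)) : Qbar) hp.out.pos
  refine ⟨⟨y, kaf_roots_subset_kummerField p K ⟨w, hw, hy⟩⟩, ?_⟩
  apply Subtype.ext
  rw [kaf_alg_coe]
  simpa using hy

theorem kaf_mem_kd_roots {y : Qbar} (hy : y ∈ kaf_roots p K S')
    (hyF : y ∈ kaf_kummerField p K S') :
    letI := kaf_alg p K S'
    (⟨y, hyF⟩ : ↥(kaf_kummerField p K S')) ∈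
      kd_roots (id_ES S' ↥K) ↥(kaf_kummerField p K S') p := by
  letI := kaf_alg p K S'
  obtain ⟨w, hw, hyw⟩ := hy
  refine ⟨w, hw, ?_⟩
  apply Subtype.ext
  rw [kaf_alg_coe]
  simpa using hyw

theorem kaf_hgen :
    letI := kaf_alg p K S'
    IntermediateField.adjoin ↥K
      (kd_roots (id_ES S' ↥K) ↥(kaf_kummerField p K S') p) = ⊤ := by
  letI := kaf_alg p K S'
  -- the image in `ℚ̄` of the adjoin, as a subfield
  let M : Subfield Qbar := (IntermediateField.adjoin ↥K
      (kd_roots (id_ES S' ↥K) ↥(kaf_kummerField p K S') p)).toSubfield.map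
        (kaf_kummerField p K S').toSubfield.subtype
  have hM : ∀ y : Qbar, y ∈ M ↔ ∃ t : ↥(kaf_kummerField p K S'),
      t ∈ IntermediateField.adjoin ↥K
        (kd_roots (id_ES S' ↥K) ↥(kaf_kummerField p K S') p) ∧ (t : Qbar) = y :=
    fun y => Iff.rfl
  let M' : IntermediateField ℚ Qbar := M.toIntermediateField (fun x => by
    rw [eq_ratCast]; exact SubfieldClass.ratCast_mem M x)
  have hM' : ∀ y : Qbar, y ∈ M' ↔ y ∈ M := fun y => Iff.rfl
  have hle : kaf_kummerField p K S' ≤ M' := by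
    refine sup_le ?_ ?_
    · intro x hx
      rw [hM', hM]
      exact ⟨algebraMap ↥K ↥(kaf_kummerField p K S') ⟨x, hx⟩,
        IntermediateField.algebraMap_mem _ _, rfl⟩
    · rw [IntermediateField.adjoin_le_iff]
      intro y hy
      have hyF : y ∈ kaf_kummerField p K S' := kaf_roots_subset_kummerField p K hy
      rw [SetLike.mem_coe, hM', hM]
      exact ⟨⟨y, hyF⟩, IntermediateField.subset_adjoin _ _ (kaf_mem_kd_roots p K hy hyF), rfl⟩
  rw [eq_top_iff]
  intro z _
  have hz := hle z.2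
  rw [hM', hM] at hz
  obtain ⟨t, ht, htz⟩ := hz
  have : t = z := Subtype.ext htz
  rw [← this]
  exact ht

theorem kaf_ES_eq_unit :
    id_ES S' ↥K = ((pl_finite_primesOver K S').toFinset :
      Set (IsDedekindDomain.HeightOneSpectrum (𝓞 ↥K))).unit ↥K := by
  rw [Set.Finite.coe_toFinset]
  ext x
  rw [ie_mem_ES_iff, pl_isSUnit_iff_mem_unit]

theorem kaf_hfin {ζ : ↥K} (hζ : IsPrimitiveRoot ζ p) :
    (powMonoidHom p : (↥K)ˣ →* (↥K)ˣ).range.relIndex (id_ES S' ↥K) ≠ 0 := by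
  rw [kaf_ES_eq_unit]
  exact kds_relIndex_unit_ne_zero _ hζ

theorem kaf_kummerField_finiteDimensional {ζ : ↥K} (hζ : IsPrimitiveRoot ζ p) :
    FiniteDimensional ℚ ↥(kaf_kummerField p K S') := by
  letI := kaf_alg p K S'
  haveI : FiniteDimensional ↥K ↥(kaf_kummerField p K S') :=
    kd_finiteDimensional hζ (id_ES S' ↥K) (kaf_hroot p K) (kaf_hgen p K) (kaf_hfin p K hζ)
  exact FiniteDimensional.trans ℚ ↥K ↥(kaf_kummerField p K S')

/-- `K(E_{S'}(K)^{1/p})` is unramified outside `S' ∋ p`. -/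
theorem kaf_kummerField_unr {ζ : ↥K} (hζ : IsPrimitiveRoot ζ p)
    (hK : K.IsUnramifiedOutside S') (hpS' : ∀ q : Nat.Primes, q ∉ S' → (q : ℕ) ≠ p) :
    (kaf_kummerField p K S').IsUnramifiedOutside S' :=
  ⟨kaf_kummerField_finiteDimensional p K hζ, fun q hq A hA =>
    kaf_inertia_le_fixingSubgroup p K hK q hq (hpS' q hq) A hA⟩

/-- Every `p`-th root of an `S'`-unit of `K` lies in `K(E_{S'}(K)^{1/p})`. -/
theorem kaf_root_mem_kummerField {w : (↥K)ˣ} (hw : w ∈ id_ES S' ↥K) {y : Qbar}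
    (hy : y ^ p = ((((w : (↥K)ˣ) : ↥K)) : Qbar)) : y ∈ kaf_kummerField p K S' :=
  kaf_roots_subset_kummerField p K ⟨w, hw, hy⟩

section Gal

variable [hKn : Normal ℚ K] {ζ : ↥K}

/-- `Gal(L'/K)` has exponent `p` for `L' = K(E_{S'}(K)^{1/p})`. -/
theorem kaf_kummer_pow (hζ : IsPrimitiveRoot ζ p) :
    haveI := kaf_kummerField_normal p K (S' := S')
    ∀ g ∈ K.fixingSubgroup.map (AlgEquiv.restrictNormalHom (kaf_kummerField p K S')),
      g ^ p = 1 := by
  haveI := kaf_kummerField_normal p K (S' := S')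
  letI : Algebra ↥K ↥(kaf_kummerField p K S') := kaf_inclAlgebra (kaf_le_kummerField p K)
  intro g hg
  rw [kaf_rel_eq_range (kaf_le_kummerField p K)] at hg
  obtain ⟨g', rfl⟩ := hg
  rw [← map_pow]
  have : g' ^ p = 1 :=
    kd_pow_eq_one hζ (id_ES S' ↥K) (kaf_hroot p K) (kaf_hgen p K) g'
  rw [this, map_one]

/-- `Gal(L'/K)` is abelian for `L' = K(E_{S'}(K)^{1/p})`. -/
theorem kaf_kummer_comm (hζ : IsPrimitiveRoot ζ p) :
    haveI := kaf_kummerField_normal p K (S' := S')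
    ∀ g ∈ K.fixingSubgroup.map (AlgEquiv.restrictNormalHom (kaf_kummerField p K S')),
      ∀ g₂ ∈ K.fixingSubgroup.map (AlgEquiv.restrictNormalHom (kaf_kummerField p K S')),
        g * g₂ = g₂ * g := by
  haveI := kaf_kummerField_normal p K (S' := S')
  letI : Algebra ↥K ↥(kaf_kummerField p K S') := kaf_inclAlgebra (kaf_le_kummerField p K)
  intro g hg g₂ hg₂
  rw [kaf_rel_eq_range (kaf_le_kummerField p K)] at hg hg₂
  obtain ⟨g', rfl⟩ := hg
  obtain ⟨g₂', rfl⟩ := hg₂
  rw [← map_mul, ← map_mul]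
  exact congrArg _ (kd_comm hζ (id_ES S' ↥K) (kaf_hroot p K) (kaf_hgen p K) g' g₂')

/-- `|Gal(L'/K)| = |E_{S'} Kˣᵖ / Kˣᵖ|` for `L' = K(E_{S'}(K)^{1/p})`. -/
theorem kaf_kummer_card (hζ : IsPrimitiveRoot ζ p) :
    haveI := kaf_kummerField_normal p K (S' := S')
    Nat.card ↥(K.fixingSubgroup.map (AlgEquiv.restrictNormalHom (kaf_kummerField p K S'))) =
      ((powMonoidHom p : (↥K)ˣ →* (↥K)ˣ).range).relIndex (id_ES S' ↥K) := by
  haveI := kaf_kummerField_normal p K (S' := S')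
  letI : Algebra ↥K ↥(kaf_kummerField p K S') := kaf_inclAlgebra (kaf_le_kummerField p K)
  rw [kaf_card_rel (kaf_le_kummerField p K)]
  exact kd_card_aut hζ (id_ES S' ↥K) (kaf_hroot p K) (kaf_hgen p K) (kaf_hfin p K hζ)

end Gal

end Kummer

/-- **T1 (a).** For a finite Galois `K/ℚ` inside `ℚ̄`, unramified outside `S' ∋ p` and containing
a primitive `p`-th root of unity, the Kummer extension `L' = K(E_{S'}(K)^{1/p})` is finite Galois
over `ℚ` and unramified outside `S'`; `Gal(L'/K)` is abelian of exponent `p` and of order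
`|E_{S'} Kˣᵖ / Kˣᵖ|`. -/
theorem kaf_exists_kummerLevel {S' : Finset Nat.Primes} (p : ℕ) [Fact p.Prime]
    (hpS' : ExtCitation.pPrime p ∈ S') (K : IntermediateField ℚ Qbar) [NumberField K] [Normal ℚ K]
    (hK : K.IsUnramifiedOutside S') (hζ : ∃ ζ : K, IsPrimitiveRoot ζ p) :
    ∃ (L' : IntermediateField ℚ Qbar) (_ : Normal ℚ L'), K ≤ L' ∧ L'.IsUnramifiedOutside S' ∧
      (∀ g ∈ K.fixingSubgroup.map (AlgEquiv.restrictNormalHom L'), g ^ p = 1) ∧
      (∀ g ∈ K.fixingSubgroup.map (AlgEquiv.restrictNormalHom L'),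
        ∀ g' ∈ K.fixingSubgroup.map (AlgEquiv.restrictNormalHom L'), g * g' = g' * g) ∧
      Nat.card ↥(K.fixingSubgroup.map (AlgEquiv.restrictNormalHom L')) =
        ((powMonoidHom p : (↥K)ˣ →* (↥K)ˣ).range).relIndex (id_ES S' ↥K) := by
  obtain ⟨ζ, hζ⟩ := hζ
  have hq : ∀ q : Nat.Primes, q ∉ S' → (q : ℕ) ≠ p := by
    intro q hq hqp
    apply hq
    have : q = ExtCitation.pPrime p := Subtype.ext hqp
    rw [this]; exact hpS'
  exact ⟨kaf_kummerField p K S', kaf_kummerField_normal p K, kaf_le_kummerField p K,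
    kaf_kummerField_unr p K hζ hK hq, kaf_kummer_pow p K hζ, kaf_kummer_comm p K hζ,
    kaf_kummer_card p K hζ⟩

end Fermat.Agent.S55
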