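/-
S55 / block [G5] : the Kummer degree of the `S`-unit extension.  Prefix `kds_`.

(1) abstract: for a finitely generated abelian group `G`, `[G : pG] = |G[p]| · p ^ rank G`;
(2) `S`-units `E_T` of a number field `K ∋ ζ_p`: `|E_T Kˣᵖ / Kˣᵖ| = p ^ (rank 𝓞ˣ + |T| + 1)`;
(3) `[K(E_T^{1/p}) : K] = p ^ (rank 𝓞ˣ + |T| + 1)`.
-/
import Fermat.Agent.S55.Kummer.Degree
import Fermat.Agent.S55.SUnit.Rank

set_option autoImplicit false

namespace Fermat.Agent.S55

section AbstractIndex

/-- `[G : pG]` is invariant under isomorphisms. -/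
theorem kds_index_equiv {G H : Type*} [AddCommGroup G] [AddCommGroup H] (e : G ≃+ H) (p : ℕ) :
    (nsmulAddMonoidHom p : G →+ G).range.index = (nsmulAddMonoidHom p : H →+ H).range.index := by
  have h : (nsmulAddMonoidHom p : G →+ G).range =
      ((nsmulAddMonoidHom p : H →+ H).range).comap e.toAddMonoidHom := by
    ext x
    simp only [AddMonoidHom.mem_range, AddSubgroup.mem_comap, nsmulAddMonoidHom_apply,
      AddEquiv.coe_toAddMonoidHom]
    constructor
    · rintro ⟨y, rfl⟩
      exact ⟨e y, (map_nsmul e p y).symm⟩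
    · rintro ⟨y, hy⟩
      refine ⟨e.symm y, ?_⟩
      apply e.injective
      rw [map_nsmul, e.apply_symm_apply, hy]
  rw [h]
  exact AddSubgroup.index_comap_of_surjective _ e.surjective

/-- `|G[p]|` is invariant under isomorphisms. -/
theorem kds_card_ker_equiv {G H : Type*} [AddCommGroup G] [AddCommGroup H] (e : G ≃+ H) (p : ℕ) :
    Nat.card (nsmulAddMonoidHom p : G →+ G).ker = Nat.card (nsmulAddMonoidHom p : H →+ H).ker := by
  refine Nat.card_congr (e.toEquiv.subtypeEquiv fun x => ?_)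
  simp only [AddMonoidHom.mem_ker, nsmulAddMonoidHom_apply]
  show p • x = 0 ↔ p • e x = 0
  rw [← map_nsmul, e.map_eq_zero_iff]

/-- the index of a product of subgroups. -/
theorem kds_index_prod {X Y : Type*} [AddCommGroup X] [AddCommGroup Y] (H : AddSubgroup X)
    (K : AddSubgroup Y) : (H.prod K).index = H.index * K.index := by
  let φ : X × Y →+ (X ⧸ H) × (Y ⧸ K) :=
    (QuotientAddGroup.mk' H).prodMap (QuotientAddGroup.mk' K)
  have hker : φ.ker = H.prod K := by
    ext ⟨x, y⟩
    simp [φ, AddMonoidHom.mem_ker, AddSubgroup.mem_prod, Prod.ext_iff]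
  have hsurj : Function.Surjective φ := by
    rintro ⟨a, b⟩
    obtain ⟨x, rfl⟩ := QuotientAddGroup.mk'_surjective H a
    obtain ⟨y, rfl⟩ := QuotientAddGroup.mk'_surjective K b
    exact ⟨(x, y), rfl⟩
  rw [← hker, AddSubgroup.index_ker, AddMonoidHom.range_eq_top.2 hsurj]
  rw [Nat.card_congr (AddSubgroup.topEquiv (G := (X ⧸ H) × (Y ⧸ K))).toEquiv, Nat.card_prod]
  rfl

theorem kds_index_prod_pow {X Y : Type*} [AddCommGroup X] [AddCommGroup Y] (p : ℕ) :
    (nsmulAddMonoidHom p : X × Y →+ X × Y).range.index =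
      (nsmulAddMonoidHom p : X →+ X).range.index * (nsmulAddMonoidHom p : Y →+ Y).range.index := by
  rw [← kds_index_prod]
  congr 1
  ext ⟨x, y⟩
  simp only [AddMonoidHom.mem_range, nsmulAddMonoidHom_apply, AddSubgroup.mem_prod, Prod.exists,
    Prod.smul_mk, Prod.mk.injEq]
  constructor
  · rintro ⟨a, b, rfl, rfl⟩
    exact ⟨⟨a, rfl⟩, ⟨b, rfl⟩⟩
  · rintro ⟨⟨a, rfl⟩, ⟨b, rfl⟩⟩
    exact ⟨a, b, rfl, rfl⟩

theorem kds_card_ker_prod_pow {X Y : Type*} [AddCommGroup X] [AddCommGroup Y] (p : ℕ) :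
    Nat.card (nsmulAddMonoidHom p : X × Y →+ X × Y).ker =
      Nat.card (nsmulAddMonoidHom p : X →+ X).ker * Nat.card (nsmulAddMonoidHom p : Y →+ Y).ker := by
  rw [← Nat.card_prod]
  refine Nat.card_congr
    { toFun := fun z => (⟨z.1.1, ?_⟩, ⟨z.1.2, ?_⟩)
      invFun := fun w => ⟨(w.1.1, w.2.1), ?_⟩
      left_inv := fun z => rfl
      right_inv := fun w => rfl }
  · have := z.2
    simp only [AddMonoidHom.mem_ker, nsmulAddMonoidHom_apply] at this ⊢
    exact congrArg Prod.fst this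
  · have := z.2
    simp only [AddMonoidHom.mem_ker, nsmulAddMonoidHom_apply] at this ⊢
    exact congrArg Prod.snd this
  · have h1 := w.1.2
    have h2 := w.2.2
    simp only [AddMonoidHom.mem_ker, nsmulAddMonoidHom_apply] at h1 h2 ⊢
    exact Prod.ext h1 h2

/-- for a finite abelian group, `[Y : pY] = |Y[p]|`. -/
theorem kds_index_eq_card_ker_of_finite {Y : Type*} [AddCommGroup Y] [Finite Y] (p : ℕ) :
    (nsmulAddMonoidHom p : Y →+ Y).range.index = Nat.card (nsmulAddMonoidHom p : Y →+ Y).ker := by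
  have h1 := (nsmulAddMonoidHom p : Y →+ Y).range.index_mul_card
  have h2 := AddSubgroup.card_eq_card_quotient_mul_card_addSubgroup (nsmulAddMonoidHom p : Y →+ Y).ker
  have h3 : Nat.card (Y ⧸ (nsmulAddMonoidHom p : Y →+ Y).ker) =
      Nat.card (nsmulAddMonoidHom p : Y →+ Y).range :=
    Nat.card_congr (QuotientAddGroup.quotientKerEquivRange _).toEquiv
  rw [h3] at h2
  have hpos : 0 < Nat.card (nsmulAddMonoidHom p : Y →+ Y).range := Nat.card_pos
  have : (nsmulAddMonoidHom p : Y →+ Y).range.index * Nat.card (nsmulAddMonoidHom p : Y →+ Y).range =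
      Nat.card (nsmulAddMonoidHom p : Y →+ Y).ker * Nat.card (nsmulAddMonoidHom p : Y →+ Y).range := by
    rw [h1, h2, mul_comm]
  exact Nat.eq_of_mul_eq_mul_right hpos this


/-- `[ℤⁿ : pℤⁿ] = pⁿ`. -/
theorem kds_index_pow_fin (n p : ℕ) [NeZero p] :
    (nsmulAddMonoidHom p : (Fin n → ℤ) →+ (Fin n → ℤ)).range.index = p ^ n := by
  let φ : (Fin n → ℤ) →+ (Fin n → ZMod p) := (Int.castAddHom (ZMod p)).compLeft (Fin n)
  have hker : φ.ker = (nsmulAddMonoidHom p : (Fin n → ℤ) →+ (Fin n → ℤ)).range := by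
    ext f
    simp only [AddMonoidHom.mem_ker, AddMonoidHom.mem_range, nsmulAddMonoidHom_apply]
    constructor
    · intro hf
      have h : ∀ i, (p : ℤ) ∣ f i := fun i => by
        have := congrFun hf i
        exact (ZMod.intCast_zmod_eq_zero_iff_dvd (f i) p).1 this
      choose g hg using h
      exact ⟨g, by ext i; simp [hg i]⟩
    · rintro ⟨g, rfl⟩
      ext i
      simp [φ]
  have hsurj : Function.Surjective φ := by
    intro f
    refine ⟨fun i => ((f i).val : ℤ), ?_⟩
    ext i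
    simp [φ]
  rw [← hker, AddSubgroup.index_ker, AddMonoidHom.range_eq_top.2 hsurj,
    Nat.card_congr (AddSubgroup.topEquiv (G := Fin n → ZMod p)).toEquiv]
  simp [Nat.card_eq_fintype_card]

theorem kds_card_ker_pow_fin (n p : ℕ) [NeZero p] :
    Nat.card (nsmulAddMonoidHom p : (Fin n → ℤ) →+ (Fin n → ℤ)).ker = 1 := by
  have : Subsingleton (nsmulAddMonoidHom p : (Fin n → ℤ) →+ (Fin n → ℤ)).ker := by
    refine ⟨fun a b => Subtype.ext ?_⟩
    have ha := a.2
    have hb := b.2
    simp only [AddMonoidHom.mem_ker, nsmulAddMonoidHom_apply] at ha hb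
    have h0 : ∀ c : Fin n → ℤ, p • c = 0 → c = 0 := by
      intro c hc
      ext i
      have := congrFun hc i
      simp only [Pi.smul_apply, nsmul_eq_mul, Pi.zero_apply, mul_eq_zero] at this
      rcases this with h | h
      · exact absurd (by exact_mod_cast h) (NeZero.ne p)
      · exact h
    rw [h0 _ ha, h0 _ hb]
  exact Nat.card_unique

/-- a finite factor does not change the rank. -/
theorem kds_finrank_prod_finite (F Y : Type*) [AddCommGroup F] [AddCommGroup Y]
    [Module.Finite ℤ F] [Finite Y] : Module.finrank ℤ (F × Y) = Module.finrank ℤ F := by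
  have : Module.Finite ℤ Y := Module.Finite.of_finite
  let N : Submodule ℤ (F × Y) := LinearMap.ker (LinearMap.fst ℤ F Y)
  have h := Submodule.finrank_quotient_add_finrank N
  have h1 : Module.finrank ℤ ((F × Y) ⧸ N) = Module.finrank ℤ F :=
    LinearEquiv.finrank_eq ((LinearMap.fst ℤ F Y).quotKerEquivOfSurjective LinearMap.fst_surjective)
  have hNfin : Finite N := by
    refine Finite.of_injective (fun x : N => (x : F × Y).2) ?_
    intro a b hab
    apply Subtype.ext
    have ha : (a : F × Y).1 = 0 := a.2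
    have hb : (b : F × Y).1 = 0 := b.2
    exact Prod.ext (ha.trans hb.symm) hab
  have h2 : Module.finrank ℤ N = 0 := by
    rw [Module.finrank_eq_zero_iff_isTorsion]
    intro x
    refine ⟨⟨(Nat.card N : ℤ), ?_⟩, ?_⟩
    · rw [mem_nonZeroDivisors_iff_ne_zero]
      exact_mod_cast Nat.card_pos.ne'
    · show (Nat.card N : ℤ) • x = 0
      rw [natCast_zsmul]
      exact card_nsmul_eq_zero'
  omega


open DirectSum in
/-- **Power index of a finitely generated abelian group**: `[G : pG] = |G[p]| · p ^ rank G`. -/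
theorem kds_index_pow_of_fg (G : Type*) [AddCommGroup G] [AddGroup.FG G] (p : ℕ) [NeZero p] :
    (nsmulAddMonoidHom p : G →+ G).range.index =
      Nat.card (nsmulAddMonoidHom p : G →+ G).ker * p ^ Module.finrank ℤ G := by
  classical
  obtain ⟨n, ι, _, q, hq, e, ⟨f⟩⟩ := AddCommGroup.equiv_free_prod_directSum_zmod G
  have : ∀ i, NeZero (q i ^ e i) := fun i => ⟨pow_ne_zero _ (hq i).ne_zero⟩
  have hY : Finite (⨁ i : ι, ZMod (q i ^ e i)) := by
    have : ∀ i, Fintype (ZMod (q i ^ e i)) := fun i => ZMod.fintype _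
    exact Finite.of_fintype (Π₀ i : ι, ZMod (q i ^ e i))
  let g : (Fin n →₀ ℤ) ≃+ (Fin n → ℤ) := (Finsupp.linearEquivFunOnFinite ℤ ℤ (Fin n)).toAddEquiv
  let f' : G ≃+ (Fin n → ℤ) × ⨁ i : ι, ZMod (q i ^ e i) := f.trans (g.prodCongr (AddEquiv.refl _))
  have hrank : Module.finrank ℤ G = n := by
    rw [LinearEquiv.finrank_eq f'.toIntLinearEquiv, kds_finrank_prod_finite, Module.finrank_fin_fun]
  rw [kds_index_equiv f' p, kds_card_ker_equiv f' p, kds_index_prod_pow, kds_card_ker_prod_pow,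
    kds_index_pow_fin, kds_card_ker_pow_fin, kds_index_eq_card_ker_of_finite, hrank]
  ring

end AbstractIndex

section MulIndex

/-- multiplicative form of `kds_index_pow_of_fg`. -/
theorem kds_index_powMonoidHom_of_fg (A : Type*) [CommGroup A] [Group.FG A] (p : ℕ) [NeZero p] :
    (powMonoidHom p : A →* A).range.index =
      Nat.card (powMonoidHom p : A →* A).ker * p ^ Module.finrank ℤ (Additive A) := by
  have hfg : AddGroup.FG (Additive A) := AddGroup.fg_iff_mul_fg.2 ‹_›
  have h := kds_index_pow_of_fg (Additive A) p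
  have h1 : (nsmulAddMonoidHom p : Additive A →+ Additive A).range =
      Subgroup.toAddSubgroup (powMonoidHom p : A →* A).range := by
    ext x
    constructor
    · rintro ⟨y, rfl⟩
      exact ⟨y.toMul, rfl⟩
    · rintro ⟨y, hy⟩
      exact ⟨Additive.ofMul y, hy⟩
  have h2 : Nat.card (nsmulAddMonoidHom p : Additive A →+ Additive A).ker =
      Nat.card (powMonoidHom p : A →* A).ker := by
    refine Nat.card_congr (Additive.toMul.subtypeEquiv fun x => ?_)
    rfl
  rw [h1, Subgroup.index_toAddSubgroup, h2] at h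
  exact h

end MulIndex

open NumberField IsDedekindDomain

section SUnits

variable {K : Type*} [Field K] [NumberField K] (T : Finset (HeightOneSpectrum (𝓞 K)))
  {p : ℕ} [hp : Fact p.Prime]

/-- the `T`-units are saturated for `p`-th powers: `x ^ p ∈ E_T → x ∈ E_T`. -/
theorem kds_mem_unit_of_pow {x : Kˣ}
    (hx : x ^ p ∈ (T : Set (HeightOneSpectrum (𝓞 K))).unit K) :
    x ∈ (T : Set (HeightOneSpectrum (𝓞 K))).unit K := by
  intro v hv
  have h := hx v hv
  rw [Units.val_pow_eq_pow_val, map_pow] at h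
  exact (pow_eq_one_iff.1 h).resolve_right hp.out.ne_zero

/-- `Kˣᵖ ∩ E_T = E_Tᵖ`. -/
theorem kds_pows_subgroupOf_unit :
    (powMonoidHom p : Kˣ →* Kˣ).range.subgroupOf ((T : Set (HeightOneSpectrum (𝓞 K))).unit K) =
      (powMonoidHom p : ((T : Set (HeightOneSpectrum (𝓞 K))).unit K) →*
        ((T : Set (HeightOneSpectrum (𝓞 K))).unit K)).range := by
  ext x
  rw [Subgroup.mem_subgroupOf]
  constructor
  · rintro ⟨y, hy⟩
    have hyE : y ∈ (T : Set (HeightOneSpectrum (𝓞 K))).unit K := by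
      apply kds_mem_unit_of_pow T (p := p)
      rw [show y ^ p = (x : Kˣ) from hy]
      exact x.2
    exact ⟨⟨y, hyE⟩, Subtype.ext hy⟩
  · rintro ⟨y, rfl⟩
    exact ⟨(y : Kˣ), rfl⟩

/-- the `p`-torsion of `E_T` is `μ_p(K)`. -/
theorem kds_card_ker_unit {ζ : K} (hζ : IsPrimitiveRoot ζ p) :
    Nat.card (powMonoidHom p : ((T : Set (HeightOneSpectrum (𝓞 K))).unit K) →*
        ((T : Set (HeightOneSpectrum (𝓞 K))).unit K)).ker = p := by
  have : NeZero p := ⟨hp.out.ne_zero⟩
  have h1 : Nat.card (rootsOfUnity p K) = p := hζ.card_rootsOfUnity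
  have e : (powMonoidHom p : ((T : Set (HeightOneSpectrum (𝓞 K))).unit K) →*
        ((T : Set (HeightOneSpectrum (𝓞 K))).unit K)).ker ≃ rootsOfUnity p K := by
    refine
      { toFun := fun x => ⟨(x.1 : Kˣ), ?_⟩
        invFun := fun r => ⟨⟨(r : Kˣ), ?_⟩, ?_⟩
        left_inv := fun x => rfl
        right_inv := fun r => rfl }
    · have := x.2
      rw [MonoidHom.mem_ker] at this
      rw [mem_rootsOfUnity]
      exact congrArg Subtype.val this
    · apply kds_mem_unit_of_pow T (p := p)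
      rw [(mem_rootsOfUnity _ _).1 r.2]
      exact Subgroup.one_mem _
    · rw [MonoidHom.mem_ker]
      apply Subtype.ext
      exact (mem_rootsOfUnity _ _).1 r.2
  exact (Nat.card_congr e).trans h1

/-- **`|E_T Kˣᵖ / Kˣᵖ| = p ^ (rank 𝓞ˣ + |T| + 1)`**. -/
theorem kds_relIndex_unit {ζ : K} (hζ : IsPrimitiveRoot ζ p) :
    (powMonoidHom p : Kˣ →* Kˣ).range.relIndex ((T : Set (HeightOneSpectrum (𝓞 K))).unit K) =
      p ^ (Units.rank K + T.card + 1) := by
  have : NeZero p := ⟨hp.out.ne_zero⟩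
  have hfg : Group.FG ((T : Set (HeightOneSpectrum (𝓞 K))).unit K) := by
    rw [GroupFG.iff_add_fg, ← Module.Finite.iff_addGroup_fg]
    exact su_unit_finite K T
  rw [Subgroup.relIndex, kds_pows_subgroupOf_unit, kds_index_powMonoidHom_of_fg,
    kds_card_ker_unit T hζ, su_finrank_unit, pow_succ, mul_comm]

end SUnits

section Degree

variable {K : Type*} [Field K] [NumberField K] (T : Finset (HeightOneSpectrum (𝓞 K)))
  {p : ℕ} [hp : Fact p.Prime] {ζ : K}

theorem kds_relIndex_unit_ne_zero (hζ : IsPrimitiveRoot ζ p) :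
    (powMonoidHom p : Kˣ →* Kˣ).range.relIndex ((T : Set (HeightOneSpectrum (𝓞 K))).unit K) ≠ 0 := by
  rw [kds_relIndex_unit T hζ]
  exact pow_ne_zero _ hp.out.ne_zero

/-- **Kummer degree of the `T`-unit extension** `L = K(E_T^{1/p})`:
`[L : K] = |Gal(L/K)| = p ^ (rank 𝓞ˣ + |T| + 1)`. -/
theorem kds_finrank {L : Type*} [Field L] [Algebra K L] (hζ : IsPrimitiveRoot ζ p)
    (hroot : ∀ w ∈ (T : Set (HeightOneSpectrum (𝓞 K))).unit K,
      ∃ y : L, y ^ p = algebraMap K L ((w : Kˣ) : K))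
    (hgen : IntermediateField.adjoin K
      (kd_roots ((T : Set (HeightOneSpectrum (𝓞 K))).unit K) L p) = ⊤) :
    FiniteDimensional K L ∧ Module.finrank K L = p ^ (Units.rank K + T.card + 1) ∧
      Nat.card (L ≃ₐ[K] L) = p ^ (Units.rank K + T.card + 1) := by
  have hfin := kds_relIndex_unit_ne_zero T hζ
  refine ⟨kd_finiteDimensional hζ _ hroot hgen hfin, ?_, ?_⟩
  · rw [kd_finrank hζ _ hroot hgen hfin, kds_relIndex_unit T hζ]
  · rw [kd_card_aut hζ _ hroot hgen hfin, kds_relIndex_unit T hζ]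

/-- ambient form: `K(E_T^{1/p}) ⊆ Ω`. -/
theorem kds_field_finrank {Ω : Type*} [Field Ω] [Algebra K Ω] (hζ : IsPrimitiveRoot ζ p)
    (hΩ : ∀ w ∈ (T : Set (HeightOneSpectrum (𝓞 K))).unit K,
      ∃ y : Ω, y ^ p = algebraMap K Ω ((w : Kˣ) : K)) :
    Module.finrank K (kd_field ((T : Set (HeightOneSpectrum (𝓞 K))).unit K) Ω p) =
      p ^ (Units.rank K + T.card + 1) := by
  rw [kd_field_finrank hζ _ hΩ (kds_relIndex_unit_ne_zero T hζ), kds_relIndex_unit T hζ]

omit [NumberField K] in
/-- a number field containing a primitive `p`-th root of unity, `p` odd, is totally complex. -/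
theorem kds_isTotallyComplex (hζ : IsPrimitiveRoot ζ p) (hp2 : p ≠ 2) : IsTotallyComplex K := by
  refine ⟨fun v => ?_⟩
  rw [← InfinitePlace.not_isReal_iff_isComplex]
  intro hv
  let φ : K →+* ℝ := InfinitePlace.embedding_of_isReal hv
  have h1 : (φ ζ) ^ p = 1 := by rw [← map_pow, hζ.pow_eq_one, map_one]
  have hodd : ¬ Even p := fun he => hp2 ((Nat.Prime.even_iff hp.out).1 he)
  rcases pow_eq_one_iff_cases.1 h1 with h | h | h
  · exact hp.out.ne_zero h
  · have : ζ = 1 := φ.injective (by rw [h, map_one])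
    exact hζ.ne_one hp.out.one_lt this
  · exact hodd h.2

/-- in the totally complex case `rank 𝓞ˣ + 1 = [K:ℚ]/2`. -/
theorem kds_two_mul_rank_add_one (hζ : IsPrimitiveRoot ζ p) (hp2 : p ≠ 2) :
    2 * (Units.rank K + 1) = Module.finrank ℚ K := by
  have htc := kds_isTotallyComplex hζ hp2
  have h1 := InfinitePlace.card_add_two_mul_card_eq_rank K
  have h2 := InfinitePlace.card_eq_nrRealPlaces_add_nrComplexPlaces K
  have h3 : InfinitePlace.nrRealPlaces K = 0 := NumberField.nrRealPlaces_eq_zero_iff.2 htc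
  have h4 : 0 < Fintype.card (InfinitePlace K) := Fintype.card_pos
  have h5 : Units.rank K = Fintype.card (InfinitePlace K) - 1 := rfl
  omega

/-- the degree formula in helper27's form: `p ^ (|T| + [K:ℚ]/2)`. -/
theorem kds_relIndex_unit' (hζ : IsPrimitiveRoot ζ p) (hp2 : p ≠ 2) :
    (powMonoidHom p : Kˣ →* Kˣ).range.relIndex ((T : Set (HeightOneSpectrum (𝓞 K))).unit K) =
      p ^ (T.card + Module.finrank ℚ K / 2) := by
  rw [kds_relIndex_unit T hζ, ← kds_two_mul_rank_add_one hζ hp2]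
  congr 1
  omega

end Degree

end Fermat.Agent.S55
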